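/-
MAZUR (K), part 1: field theory inside `ℂ`.

* `mzkCl S` : the relative algebraic closure in `ℂ` of the field generated by `S ⊆ ℂ`;
* `mzkH S` : the subgroup of `Aut(ℂ/ℚ)` fixing `mzkCl S` pointwise;
* the finite-orbit lemma, transport under automorphisms, transcendence over `mzkCl S`.
-/
import Mathlib
import Fermat.Agent.Lib.T1.Dict.DescentAlg

set_option autoImplicit false
set_option linter.unusedSectionVars false
set_option linter.style.haveILetI false

namespace Fermat.Agent.Mazur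

open Polynomial

/-! ### algebraicity over subfields of `ℂ` -/

/-- algebraicity is monotone in the base subfield -/
theorem mzk_isAlgebraic_mono {F₁ F₂ : Subfield ℂ} (h : F₁ ≤ F₂) {a : ℂ}
    (ha : IsAlgebraic ↥F₁ a) : IsAlgebraic ↥F₂ a := by
  obtain ⟨p, hp0, hp⟩ := ha
  refine ⟨p.map (Subfield.inclusion h), ?_, ?_⟩
  · rwa [Ne, Polynomial.map_eq_zero_iff (Subfield.inclusion h).injective]
  · rw [aeval_def, eval₂_map]
    have : (algebraMap ↥F₂ ℂ).comp (Subfield.inclusion h) = algebraMap ↥F₁ ℂ := by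
      ext x
      rfl
    rw [this, ← aeval_def]
    exact hp

/-- the relative algebraic closure in `ℂ` of the subfield generated by `S` -/
noncomputable def mzkCl (S : Set ℂ) : Subfield ℂ :=
  (algebraicClosure ↥(Subfield.closure S) ℂ).toSubfield

theorem mzk_mem_cl_iff {S : Set ℂ} {a : ℂ} :
    a ∈ mzkCl S ↔ IsAlgebraic ↥(Subfield.closure S) a :=
  mem_algebraicClosure_iff

theorem mzk_closure_le_cl (S : Set ℂ) : Subfield.closure S ≤ mzkCl S := by
  intro a ha
  rw [mzk_mem_cl_iff]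
  exact isAlgebraic_algebraMap (⟨a, ha⟩ : ↥(Subfield.closure S))

theorem mzk_subset_cl (S : Set ℂ) : S ⊆ mzkCl S := fun _ ha =>
  mzk_closure_le_cl S (Subfield.subset_closure ha)

theorem mzkCl_mono {S T : Set ℂ} (h : S ⊆ T) : mzkCl S ≤ mzkCl T := by
  intro a ha
  rw [mzk_mem_cl_iff] at ha ⊢
  exact mzk_isAlgebraic_mono (Subfield.closure_mono h) ha

noncomputable instance mzkClAlgClosed (S : Set ℂ) : IsAlgClosed ↥(mzkCl S) :=
  (algebraicClosure.isAlgClosure ↥(Subfield.closure S) ℂ).isAlgClosed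

/-- `mzkCl S` is algebraically closed in `ℂ` -/
theorem mzk_mem_cl_of_isAlgebraic {S : Set ℂ} {a : ℂ} (ha : IsAlgebraic ↥(mzkCl S) a) :
    a ∈ mzkCl S := by
  have hint : IsIntegral ↥(mzkCl S) a := ha.isIntegral
  have h1 := minpoly.mem_range_of_degree_eq_one ↥(mzkCl S) a
    (IsAlgClosed.degree_eq_one_of_irreducible ↥(mzkCl S) (minpoly.irreducible hint))
  obtain ⟨c, rfl⟩ := h1
  exact c.2

/-- an element algebraic over a subfield contained in `mzkCl S` lies in `mzkCl S` -/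
theorem mzk_mem_cl_of_isAlgebraic_of_le {S : Set ℂ} {F : Subfield ℂ} (hF : F ≤ mzkCl S) {a : ℂ}
    (ha : IsAlgebraic ↥F a) : a ∈ mzkCl S :=
  mzk_mem_cl_of_isAlgebraic (mzk_isAlgebraic_mono hF ha)

theorem mzk_cl_le_iff {S T : Set ℂ} : mzkCl S ≤ mzkCl T ↔ S ⊆ mzkCl T := by
  constructor
  · exact fun h => (mzk_subset_cl S).trans h
  · intro h a ha
    rw [mzk_mem_cl_iff] at ha
    exact mzk_mem_cl_of_isAlgebraic_of_le ((Subfield.closure_le).mpr h) ha

theorem mzk_cl_cl_union (S T : Set ℂ) : mzkCl (↑(mzkCl S) ∪ T) = mzkCl (S ∪ T) := by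
  apply le_antisymm
  · rw [mzk_cl_le_iff]
    rintro a (ha | ha)
    · exact mzkCl_mono Set.subset_union_left ha
    · exact mzk_subset_cl _ (Or.inr ha)
  · exact mzkCl_mono (Set.union_subset_union_left T (mzk_subset_cl S))

theorem mzk_cl_idem (S : Set ℂ) : mzkCl (↑(mzkCl S) : Set ℂ) = mzkCl S := by
  have h := mzk_cl_cl_union S ∅
  rwa [Set.union_empty, Set.union_empty] at h

/-! ### transcendence over `mzkCl S` -/

/-- algebraicity over the algebra generated by `X` over `mzkCl S` is membership in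
`mzkCl (S ∪ X)` -/
theorem mzk_isAlgebraic_adjoin_iff (S X : Set ℂ) (a : ℂ) :
    IsAlgebraic ↥(Algebra.adjoin ↥(mzkCl S) X) a ↔ a ∈ mzkCl (S ∪ X) := by
  set B := Algebra.adjoin ↥(mzkCl S) X with hB
  have hBle : ∀ b : ↥B, (b : ℂ) ∈ mzkCl (S ∪ X) := by
    intro b
    have hb : (b : ℂ) ∈ Algebra.adjoin ↥(mzkCl S) X := b.2
    refine Algebra.adjoin_induction ?_ ?_ ?_ ?_ hb
    · intro x hx
      exact mzk_subset_cl _ (Or.inr hx)
    · intro c
      exact mzkCl_mono Set.subset_union_left c.2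
    · intro x y _ _ hx hy
      exact add_mem hx hy
    · intro x y _ _ hx hy
      exact mul_mem hx hy
  constructor
  · intro ha
    apply mzk_mem_cl_of_isAlgebraic
    let φ : ↥B →+* ↥(mzkCl (S ∪ X)) :=
      { toFun := fun b => ⟨(b : ℂ), hBle b⟩
        map_one' := rfl
        map_mul' := fun _ _ => rfl
        map_zero' := rfl
        map_add' := fun _ _ => rfl }
    have hφinj : Function.Injective φ := by
      intro b b' h
      apply Subtype.ext
      exact congrArg (fun x : ↥(mzkCl (S ∪ X)) => (x : ℂ)) h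
    obtain ⟨p, hp0, hp⟩ := ha
    refine ⟨p.map φ, ?_, ?_⟩
    · rwa [Ne, Polynomial.map_eq_zero_iff hφinj]
    · rw [aeval_def, eval₂_map]
      have : (algebraMap ↥(mzkCl (S ∪ X)) ℂ).comp φ = algebraMap ↥B ℂ := by
        ext x
        rfl
      rw [this, ← aeval_def]
      exact hp
  · intro ha
    -- the elements algebraic over `B` form a subfield containing `S ∪ X`
    by_contra hcon
    have htr : Transcendental ↥B a := hcon
    have htr2 := htr.subalgebraAlgebraicClosure (S := ℂ)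
    apply htr2
    -- `closure (S ∪ X)` is contained in the algebraic closure of `B`
    let AB := Subalgebra.algebraicClosure ↥B ℂ
    let FB : Subfield ℂ :=
      { carrier := {x | IsAlgebraic ↥B x}
        mul_mem' := fun hx hy => hx.mul hy
        one_mem' := isAlgebraic_one
        add_mem' := fun hx hy => hx.add hy
        zero_mem' := isAlgebraic_zero
        neg_mem' := fun hx => hx.neg
        inv_mem' := fun _ hx => hx.inv }
    have hSX : Subfield.closure (S ∪ X) ≤ FB := by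
      rw [Subfield.closure_le]
      rintro x (hx | hx)
      · have hxB : x ∈ B := by
          have : x = algebraMap ↥(mzkCl S) ℂ ⟨x, mzk_subset_cl S hx⟩ := rfl
          rw [this]
          exact Subalgebra.algebraMap_mem B _
        exact isAlgebraic_algebraMap (⟨x, hxB⟩ : ↥B)
      · have hxB : x ∈ B := Algebra.subset_adjoin hx
        exact isAlgebraic_algebraMap (⟨x, hxB⟩ : ↥B)
    rw [mzk_mem_cl_iff] at ha
    obtain ⟨p, hp0, hp⟩ := ha
    let ψ : ↥(Subfield.closure (S ∪ X)) →+* ↥AB :=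
      { toFun := fun b => ⟨(b : ℂ), hSX b.2⟩
        map_one' := rfl
        map_mul' := fun _ _ => rfl
        map_zero' := rfl
        map_add' := fun _ _ => rfl }
    have hψinj : Function.Injective ψ := by
      intro b b' h
      apply Subtype.ext
      exact congrArg (fun x : ↥AB => (x : ℂ)) h
    refine ⟨p.map ψ, ?_, ?_⟩
    · rwa [Ne, Polynomial.map_eq_zero_iff hψinj]
    · rw [aeval_def, eval₂_map]
      have : (algebraMap ↥AB ℂ).comp ψ = algebraMap ↥(Subfield.closure (S ∪ X)) ℂ := by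
        ext x
        rfl
      rw [this, ← aeval_def]
      exact hp

theorem mzk_transcendental_adjoin_iff (S X : Set ℂ) (a : ℂ) :
    Transcendental ↥(Algebra.adjoin ↥(mzkCl S) X) a ↔ a ∉ mzkCl (S ∪ X) := by
  rw [Transcendental, mzk_isAlgebraic_adjoin_iff]

theorem mzk_transcendental_iff (S : Set ℂ) (a : ℂ) :
    Transcendental ↥(mzkCl S) a ↔ a ∉ mzkCl S := by
  constructor
  · intro h ha
    exact h (isAlgebraic_algebraMap (⟨a, ha⟩ : ↥(mzkCl S)))
  · intro h ha
    exact h (mzk_mem_cl_of_isAlgebraic ha)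

/-! ### the fixing subgroups -/

/-- the subgroup of `Aut(ℂ/ℚ)` fixing `mzkCl S` pointwise -/
def mzkH (S : Set ℂ) : Subgroup (ℂ ≃ₐ[ℚ] ℂ) where
  carrier := {σ | ∀ a ∈ mzkCl S, σ a = a}
  mul_mem' := by
    intro σ τ hσ hτ a ha
    rw [AlgEquiv.mul_apply, hτ a ha, hσ a ha]
  one_mem' := fun _ _ => rfl
  inv_mem' := by
    intro σ hσ a ha
    have h := hσ a ha
    calc σ⁻¹ a = σ⁻¹ (σ a) := by rw [h]
      _ = a := by rw [← AlgEquiv.mul_apply, inv_mul_cancel, AlgEquiv.one_apply]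

theorem mzk_mem_H_iff {S : Set ℂ} {σ : ℂ ≃ₐ[ℚ] ℂ} : σ ∈ mzkH S ↔ ∀ a ∈ mzkCl S, σ a = a := Iff.rfl

theorem mzkH_anti {S T : Set ℂ} (h : S ⊆ T) : mzkH T ≤ mzkH S :=
  fun _ hσ a ha => hσ a (mzkCl_mono h ha)

theorem mzkH_apply_of_mem {S : Set ℂ} {σ : ℂ ≃ₐ[ℚ] ℂ} (hσ : σ ∈ mzkH S) {a : ℂ} (ha : a ∈ S) :
    σ a = a := hσ a (mzk_subset_cl S ha)

theorem mzk_restrictScalars_mem_H (S : Set ℂ) (τ : ℂ ≃ₐ[↥(mzkCl S)] ℂ) :
    τ.restrictScalars ℚ ∈ mzkH S := by
  intro a ha
  exact τ.commutes ⟨a, ha⟩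

/-- an element of `mzkH S` as an automorphism over `mzkCl S` -/
noncomputable def mzkOfH {S : Set ℂ} {σ : ℂ ≃ₐ[ℚ] ℂ} (hσ : σ ∈ mzkH S) : ℂ ≃ₐ[↥(mzkCl S)] ℂ :=
  AlgEquiv.ofRingEquiv (f := σ.toRingEquiv) (fun c => hσ c c.2)

@[simp] theorem mzkOfH_apply {S : Set ℂ} {σ : ℂ ≃ₐ[ℚ] ℂ} (hσ : σ ∈ mzkH S) (x : ℂ) :
    mzkOfH hσ x = σ x := rfl

/-- **the finite-orbit lemma**: a complex number with finite orbit under `mzkH S` lies in
`mzkCl S` -/
theorem mzk_mem_cl_of_finite_orbit (S : Set ℂ) (a : ℂ)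
    (h : (Set.range fun σ : mzkH S => (σ : ℂ ≃ₐ[ℚ] ℂ) a).Finite) : a ∈ mzkCl S := by
  have h2 : (Set.range fun τ : ℂ ≃ₐ[↥(mzkCl S)] ℂ => τ a).Finite := by
    refine h.subset ?_
    rintro _ ⟨τ, rfl⟩
    exact ⟨⟨τ.restrictScalars ℚ, mzk_restrictScalars_mem_H S τ⟩, rfl⟩
  obtain ⟨c, hc⟩ := Fermat.Agent.T1.tdd_mem_range_of_finite_orbit (K := ↥(mzkCl S)) (Ω := ℂ) a h2
  rw [← hc]
  exact c.2

/-- a complex number fixed by `mzkH S` lies in `mzkCl S` -/
theorem mzk_mem_cl_of_fixed (S : Set ℂ) (a : ℂ) (h : ∀ σ ∈ mzkH S, σ a = a) : a ∈ mzkCl S := by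
  apply mzk_mem_cl_of_finite_orbit
  refine (Set.finite_singleton a).subset ?_
  rintro _ ⟨σ, rfl⟩
  exact h σ σ.2

/-! ### transport under automorphisms -/

theorem mzk_map_mem_cl (σ : ℂ ≃ₐ[ℚ] ℂ) {S : Set ℂ} {a : ℂ} (ha : a ∈ mzkCl S) :
    σ a ∈ mzkCl (σ '' S) := by
  rw [mzk_mem_cl_iff] at ha ⊢
  have hmap : (Subfield.closure S).map (σ : ℂ →+* ℂ) = Subfield.closure (σ '' S) :=
    RingHom.map_field_closure (σ : ℂ →+* ℂ) S
  let f : ↥(Subfield.closure (σ '' S)) →+* ↥(Subfield.closure S) :=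
    { toFun := fun x => ⟨σ.symm (x : ℂ), by
        have hx : (x : ℂ) ∈ (Subfield.closure S).map (σ : ℂ →+* ℂ) := by rw [hmap]; exact x.2
        obtain ⟨y, hy, hyx⟩ := hx
        have : σ.symm (x : ℂ) = y := by
          rw [← hyx]
          exact σ.symm_apply_apply y
        rw [this]
        exact hy⟩
      map_one' := Subtype.ext (map_one σ.symm)
      map_mul' := fun x y => Subtype.ext (map_mul σ.symm _ _)
      map_zero' := Subtype.ext (map_zero σ.symm)
      map_add' := fun x y => Subtype.ext (map_add σ.symm _ _) }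
  have hf : Function.Surjective f := by
    intro y
    have hy : σ (y : ℂ) ∈ Subfield.closure (σ '' S) := by
      rw [← hmap]
      exact ⟨y, y.2, rfl⟩
    refine ⟨⟨σ (y : ℂ), hy⟩, Subtype.ext ?_⟩
    exact σ.symm_apply_apply _
  have ha' : IsAlgebraic ↥(Subfield.closure S) ((σ.symm : ℂ →+* ℂ) (σ a)) := by
    have : (σ.symm : ℂ →+* ℂ) (σ a) = a := σ.symm_apply_apply a
    rw [this]
    exact ha
  refine IsAlgebraic.of_ringHom_of_comp_eq (f := f) (g := (σ.symm : ℂ →+* ℂ)) ha' hf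
    σ.symm.injective ?_
  ext x
  rfl

theorem mzk_map_mem_cl_union {S X : Set ℂ} {σ : ℂ ≃ₐ[ℚ] ℂ} (hσ : σ ∈ mzkH S) {a : ℂ}
    (ha : a ∈ mzkCl (S ∪ X)) : σ a ∈ mzkCl (S ∪ σ '' X) := by
  have h := mzk_map_mem_cl σ ha
  rw [Set.image_union] at h
  have hS : σ '' S = S := by
    ext x
    constructor
    · rintro ⟨y, hy, rfl⟩
      rwa [mzkH_apply_of_mem hσ hy]
    · intro hx
      exact ⟨x, hx, mzkH_apply_of_mem hσ hx⟩
  rwa [hS] at h

theorem mzk_map_mem_cl_union_iff {S X : Set ℂ} {σ : ℂ ≃ₐ[ℚ] ℂ} (hσ : σ ∈ mzkH S) {a : ℂ} :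
    σ a ∈ mzkCl (S ∪ σ '' X) ↔ a ∈ mzkCl (S ∪ X) := by
  constructor
  · intro h
    have h2 := mzk_map_mem_cl_union ((mzkH S).inv_mem hσ) h
    have h3 : σ⁻¹ (σ a) = a := by
      rw [← AlgEquiv.mul_apply, inv_mul_cancel, AlgEquiv.one_apply]
    have h4 : (σ⁻¹ : ℂ ≃ₐ[ℚ] ℂ) '' (σ '' X) = X := by
      rw [← Set.image_comp]
      have : (⇑(σ⁻¹ : ℂ ≃ₐ[ℚ] ℂ) ∘ ⇑σ) = id := by
        funext x
        show σ⁻¹ (σ x) = x
        rw [← AlgEquiv.mul_apply, inv_mul_cancel, AlgEquiv.one_apply]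
      rw [this, Set.image_id]
    rwa [h3, h4] at h2
  · exact mzk_map_mem_cl_union hσ

/-- `mzkH (S ∪ X)` is carried to `mzkH (S ∪ σ X)` by conjugation with `σ ∈ mzkH S` -/
theorem mzk_conj_mem_H {S X : Set ℂ} {σ τ : ℂ ≃ₐ[ℚ] ℂ} (hσ : σ ∈ mzkH S)
    (hτ : τ ∈ mzkH (S ∪ X)) : σ * τ * σ⁻¹ ∈ mzkH (S ∪ σ '' X) := by
  intro a ha
  have h1 : σ⁻¹ a ∈ mzkCl (S ∪ X) := by
    rw [← mzk_map_mem_cl_union_iff hσ]
    have : σ (σ⁻¹ a) = a := by
      rw [← AlgEquiv.mul_apply, mul_inv_cancel, AlgEquiv.one_apply]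
    rwa [this]
  rw [AlgEquiv.mul_apply, AlgEquiv.mul_apply, hτ _ h1, ← AlgEquiv.mul_apply, mul_inv_cancel,
    AlgEquiv.one_apply]

/-! ### independent sequences -/

/-- `x 0, …, x (n-1)` are successively transcendental over `mzkCl S` -/
def mzkIndep (S : Set ℂ) (x : ℕ → ℂ) (n : ℕ) : Prop :=
  ∀ i < n, x i ∉ mzkCl (S ∪ x '' Set.Iio i)

theorem mzkIndep_zero (S : Set ℂ) (x : ℕ → ℂ) : mzkIndep S x 0 := fun _ hi => absurd hi (by omega)

theorem mzkIndep_succ_iff (S : Set ℂ) (x : ℕ → ℂ) (n : ℕ) :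
    mzkIndep S x (n + 1) ↔ mzkIndep S x n ∧ x n ∉ mzkCl (S ∪ x '' Set.Iio n) := by
  constructor
  · intro h
    exact ⟨fun i hi => h i (by omega), h n (by omega)⟩
  · rintro ⟨h1, h2⟩ i hi
    rcases Nat.lt_succ_iff_lt_or_eq.mp hi with h | rfl
    · exact h1 i h
    · exact h2

theorem mzkIndep_mono {S : Set ℂ} {x : ℕ → ℂ} {m n : ℕ} (h : m ≤ n) (hx : mzkIndep S x n) :
    mzkIndep S x m := fun i hi => hx i (by omega)

theorem mzkIndep_congr {S : Set ℂ} {x y : ℕ → ℂ} {n : ℕ} (h : ∀ i < n, x i = y i)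
    (hx : mzkIndep S x n) : mzkIndep S y n := by
  intro i hi
  have h1 : y '' Set.Iio i = x '' Set.Iio i := by
    apply Set.image_congr
    intro k hk
    exact (h k (lt_trans hk hi)).symm
  rw [← h i hi, h1]
  exact hx i hi

theorem mzkIndep_iff_algebraicIndepOn (S : Set ℂ) (x : ℕ → ℂ) (n : ℕ) :
    mzkIndep S x n ↔ AlgebraicIndepOn ↥(mzkCl S) x (Set.Iio n) := by
  induction n with
  | zero =>
    refine ⟨fun _ => ?_, fun _ => mzkIndep_zero S x⟩
    have hempty : IsEmpty ↥(Set.Iio (0 : ℕ)) := ⟨fun i => absurd i.2 (by simp)⟩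
    exact algebraicIndependent_empty_type
  | succ n ih =>
    have hins : Set.Iio (n + 1) = insert n (Set.Iio n) := by
      ext i
      simp only [Set.mem_Iio, Set.mem_insert_iff]
      omega
    rw [mzkIndep_succ_iff, hins, AlgebraicIndepOn.insert_iff (by simp), ih,
      mzk_transcendental_adjoin_iff]

/-- an automorphism in `mzkH S` carries independent sequences to independent sequences -/
theorem mzkIndep_map {S : Set ℂ} {σ : ℂ ≃ₐ[ℚ] ℂ} (hσ : σ ∈ mzkH S) {x : ℕ → ℂ} {n : ℕ}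
    (hx : mzkIndep S x n) : mzkIndep S (fun i => σ (x i)) n := by
  intro i hi h
  apply hx i hi
  rw [← mzk_map_mem_cl_union_iff hσ]
  have : σ '' (x '' Set.Iio i) = (fun i => σ (x i)) '' Set.Iio i := by
    rw [← Set.image_comp]
    rfl
  rwa [this]

open AlgebraicIndependent in
/-- **the exchange count**: if `p 0, …, p (n-1)` are independent over `mzkCl S` and algebraic over
`mzkCl S (q 0, …, q (n-1))`, then the `q i` are independent over `mzkCl S` -/
theorem mzkIndep_of_mem_cl (S : Set ℂ) (n : ℕ) (p q : ℕ → ℂ) (hp : mzkIndep S p n)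
    (hpq : ∀ i < n, p i ∈ mzkCl (S ∪ q '' Set.Iio n)) : mzkIndep S q n := by
  classical
  rw [mzkIndep_iff_algebraicIndepOn] at hp ⊢
  set M := AlgebraicIndependent.matroid ↥(mzkCl S) ℂ with hM
  set I : Set ℂ := p '' Set.Iio n with hI
  set X : Set ℂ := q '' Set.Iio n with hX
  have hpinj : Function.Injective fun i : ↥(Set.Iio n) => p i := hp.injective
  have hIindep : M.Indep I := by
    rw [hM, matroid_indep_iff, hI, Set.image_eq_range]
    exact hp.to_subtype_range
  have hIcard : I.encard = n := by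
    rw [hI, Set.InjOn.encard_image]
    · rw [Set.encard_eq_coe_toFinset_card, Set.toFinset_Iio, Nat.card_Iio]
    · intro a ha b hb hab
      have := hpinj (a₁ := ⟨a, ha⟩) (a₂ := ⟨b, hb⟩) hab
      exact congrArg Subtype.val this
  have hIcl : I ⊆ M.closure X := by
    rintro _ ⟨i, hi, rfl⟩
    rw [hM, matroid_closure_eq]
    show p i ∈ (Subalgebra.algebraicClosure ↥(Algebra.adjoin ↥(mzkCl S) X) ℂ : Set ℂ)
    rw [SetLike.mem_coe, Subalgebra.mem_algebraicClosure, mzk_isAlgebraic_adjoin_iff]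
    exact hpq i hi
  have hXfin : X.Finite := (Set.finite_Iio n).image q
  have h1 : (n : ℕ∞) ≤ M.eRk X := by
    rw [← hIcard, ← M.eRk_closure_eq X]
    exact hIindep.encard_le_eRk_of_subset hIcl
  have h2 : X.encard ≤ n := by
    calc X.encard ≤ (Set.Iio n).encard := Set.encard_image_le q _
      _ = n := by rw [Set.encard_eq_coe_toFinset_card, Set.toFinset_Iio, Nat.card_Iio]
  have h3 : M.eRk X ≤ X.encard := M.eRk_le_encard X
  have hXindep : M.Indep X := by
    rw [Matroid.indep_iff_eRk_eq_encard_of_finite hXfin]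
    exact le_antisymm h3 (h2.trans h1)
  have hXcard : X.encard = (Set.Iio n).encard := by
    rw [Set.encard_eq_coe_toFinset_card (Set.Iio n), Set.toFinset_Iio, Nat.card_Iio]
    exact le_antisymm h2 (h1.trans h3)
  have hqinj : Set.InjOn q (Set.Iio n) :=
    (Set.finite_Iio n).injOn_of_encard_image_eq hXcard
  have hqinj' : Function.Injective fun i : ↥(Set.Iio n) => q i := by
    intro a b hab
    exact Subtype.ext (hqinj a.2 b.2 hab)
  rw [hM, matroid_indep_iff, hX, Set.image_eq_range] at hXindep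
  exact (algebraicIndependent_subtype_range hqinj').mp hXindep

/-! ### existence of independent sequences -/

open Cardinal in
/-- there is an infinite sequence of complex numbers, algebraically independent over `ℚ̄` -/
theorem mzk_exists_indep : ∃ x : ℕ → ℂ, ∀ n, mzkIndep ∅ x n := by
  obtain ⟨s, hs⟩ := exists_isTranscendenceBasis ℚ ℂ
  have hcard : #ℂ = #s :=
    IsAlgClosed.cardinal_eq_cardinal_transcendence_basis_of_aleph0_lt' (R := ℚ) (K' := ℂ)
      (v' := ((↑) : s → ℂ)) hs (le_of_eq Cardinal.mkRat)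
      (by rw [mk_complex]; exact aleph0_lt_continuum)
  have hinf : Infinite ↥s := by
    rw [← Cardinal.aleph0_le_mk_iff, ← hcard, mk_complex]
    exact aleph0_le_continuum
  let f : ℕ ↪ ↥s := Infinite.natEmbedding ↥s
  have h1 : AlgebraicIndependent ℚ fun i : ℕ => ((f i : ↥s) : ℂ) := hs.1.comp f f.injective
  -- extend scalars to the algebraic numbers
  haveI : Algebra.IsAlgebraic ℚ ↥(mzkCl ∅) := by
    refine ⟨fun c => ?_⟩
    have hc := c.2
    rw [mzk_mem_cl_iff] at hc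
    have hbot : Subfield.closure (∅ : Set ℂ) = ⊥ := Subfield.closure_empty
    have h2 : IsAlgebraic ℚ (c : ℂ) := by
      obtain ⟨p, hp0, hp⟩ := hc
      -- every element of the prime subfield is rational
      have hrat : ∀ y : ↥(Subfield.closure (∅ : Set ℂ)), ∃ r : ℚ, (y : ℂ) = r := by
        intro y
        have hy : (y : ℂ) ∈ (⊥ : Subfield ℂ) := hbot ▸ y.2
        rw [Subfield.bot_eq_of_charZero] at hy
        obtain ⟨r, hr⟩ := hy
        exact ⟨r, by rw [← hr]; rfl⟩
      choose g hg using hrat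
      let φ : ↥(Subfield.closure (∅ : Set ℂ)) →+* ℚ :=
        { toFun := g
          map_one' := by
            have := hg 1
            exact_mod_cast this.symm
          map_mul' := fun a b => by
            have h := hg (a * b)
            rw [Subfield.coe_mul, hg a, hg b] at h
            exact_mod_cast h.symm
          map_zero' := by
            have := hg 0
            exact_mod_cast this.symm
          map_add' := fun a b => by
            have h := hg (a + b)
            rw [Subfield.coe_add, hg a, hg b] at h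
            exact_mod_cast h.symm }
      refine ⟨p.map φ, ?_, ?_⟩
      · rwa [Ne, Polynomial.map_eq_zero_iff φ.injective]
      · rw [aeval_def, eval₂_map]
        have : (algebraMap ℚ ℂ).comp φ = algebraMap ↥(Subfield.closure (∅ : Set ℂ)) ℂ := by
          ext y
          show ((g y : ℚ) : ℂ) = (y : ℂ)
          exact (hg y).symm
        rw [this, ← aeval_def]
        exact hp
    exact (isAlgebraic_algHom_iff (IsScalarTower.toAlgHom ℚ ↥(mzkCl ∅) ℂ)
      (Subtype.val_injective)).mp h2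
  have h2 : AlgebraicIndependent ↥(mzkCl ∅) fun i : ℕ => ((f i : ↥s) : ℂ) := h1.extendScalars _
  refine ⟨fun i => ((f i : ↥s) : ℂ), fun n => ?_⟩
  rw [mzkIndep_iff_algebraicIndepOn]
  exact h2.comp (fun i : ↥(Set.Iio n) => (i : ℕ)) Subtype.val_injective

end Fermat.Agent.Mazur
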