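/-
MAZUR (K), part 2: extension of isomorphisms of subfields of `ℂ` to automorphisms of `ℂ`.
-/
import Mathlib
import Fermat.Agent.Lib.Mazur.K.Field

set_option autoImplicit false
set_option linter.unusedSectionVars false
set_option linter.style.haveILetI false

namespace Fermat.Agent.Mazur

open Polynomial Cardinal

/-! ### countability -/

theorem mzk_countable_cl {S : Set ℂ} (hS : S.Countable) : #↥(mzkCl S) ≤ ℵ₀ := by
  have h1 : #↥(Subfield.closure S) ≤ ℵ₀ := by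
    refine (Subfield.cardinalMk_closure_le_max S).trans ?_
    exact max_le (Cardinal.le_aleph0_iff_set_countable.mpr hS) le_rfl
  have h2 : #↥(algebraicClosure ↥(Subfield.closure S) ℂ) ≤ max #↥(Subfield.closure S) ℵ₀ :=
    Algebra.IsAlgebraic.cardinalMk_le_max ↥(Subfield.closure S)
      ↥(algebraicClosure ↥(Subfield.closure S) ℂ)
  exact h2.trans (max_le h1 le_rfl)

/-- a transcendence basis of `ℂ` over a countable algebraically closed subfield has the cardinality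
of the continuum -/
theorem mzk_card_basis {S : Set ℂ} (hS : S.Countable) (T : Set ℂ)
    (hT : IsTranscendenceBasis ↥(mzkCl S) ((↑) : T → ℂ)) : #ℂ = #T :=
  IsAlgClosed.cardinal_eq_cardinal_transcendence_basis_of_aleph0_lt' (R := ↥(mzkCl S)) (K' := ℂ)
    (v' := ((↑) : T → ℂ)) hT (mzk_countable_cl hS)
    (by rw [mk_complex]; exact aleph0_lt_continuum)

/-! ### extension from an algebraically closed subfield -/

/-- an isomorphism between two countable algebraically closed subfields `mzkCl S₁`, `mzkCl S₂` of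
`ℂ` extends to an automorphism of `ℂ` -/
theorem mzk_exists_extend_cl {S₁ S₂ : Set ℂ} (h₁ : S₁.Countable) (h₂ : S₂.Countable)
    (θ : ↥(mzkCl S₁) ≃+* ↥(mzkCl S₂)) :
    ∃ σ : ℂ ≃+* ℂ, ∀ x : ↥(mzkCl S₁), σ (x : ℂ) = (θ x : ℂ) := by
  obtain ⟨T₁, hT₁⟩ := exists_isTranscendenceBasis ↥(mzkCl S₁) ℂ
  obtain ⟨T₂, hT₂⟩ := exists_isTranscendenceBasis ↥(mzkCl S₂) ℂ
  have hc : #T₁ = #T₂ := by rw [← mzk_card_basis h₁ T₁ hT₁, ← mzk_card_basis h₂ T₂ hT₂]
  obtain ⟨e⟩ := Cardinal.eq.mp hc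
  letI := IsAlgClosed.isAlgClosure_of_transcendence_basis ((↑) : T₁ → ℂ) hT₁
  letI := IsAlgClosed.isAlgClosure_of_transcendence_basis ((↑) : T₂ → ℂ) hT₂
  let mid : MvPolynomial T₁ ↥(mzkCl S₁) ≃+* MvPolynomial T₂ ↥(mzkCl S₂) :=
    (MvPolynomial.mapEquiv T₁ θ).trans (MvPolynomial.renameEquiv ↥(mzkCl S₂) e).toRingEquiv
  let e₀ : ↥(Algebra.adjoin ↥(mzkCl S₁) (Set.range ((↑) : T₁ → ℂ))) ≃+*
      ↥(Algebra.adjoin ↥(mzkCl S₂) (Set.range ((↑) : T₂ → ℂ))) :=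
    hT₁.1.aevalEquiv.symm.toRingEquiv.trans (mid.trans hT₂.1.aevalEquiv.toRingEquiv)
  let σ₀ : ℂ ≃+* ℂ := IsAlgClosure.equivOfEquiv ℂ ℂ e₀
  refine ⟨σ₀, fun x => ?_⟩
  have hx : (x : ℂ) = algebraMap ↥(Algebra.adjoin ↥(mzkCl S₁) (Set.range ((↑) : T₁ → ℂ))) ℂ
      (algebraMap ↥(mzkCl S₁) _ x) := rfl
  rw [hx]
  show (IsAlgClosure.equivOfEquiv ℂ ℂ e₀) _ = _
  rw [IsAlgClosure.equivOfEquiv_algebraMap]
  have he₀ : e₀ (algebraMap ↥(mzkCl S₁) _ x) = algebraMap ↥(mzkCl S₂) _ (θ x) := by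
    show hT₂.1.aevalEquiv (mid (hT₁.1.aevalEquiv.symm (algebraMap ↥(mzkCl S₁) _ x))) = _
    have h1 : hT₁.1.aevalEquiv.symm (algebraMap ↥(mzkCl S₁) _ x) = MvPolynomial.C x := by
      rw [AlgEquiv.symm_apply_eq]
      exact (hT₁.1.aevalEquiv.commutes x).symm
    rw [h1]
    have h2 : mid (MvPolynomial.C x) = MvPolynomial.C (θ x) := by
      show (MvPolynomial.renameEquiv ↥(mzkCl S₂) e) (MvPolynomial.mapEquiv T₁ θ (MvPolynomial.C x))
        = _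
      rw [MvPolynomial.mapEquiv_apply, MvPolynomial.map_C, MvPolynomial.renameEquiv_apply,
        MvPolynomial.rename_C]
      rfl
    rw [h2]
    exact hT₂.1.aevalEquiv.commutes (θ x)
  rw [he₀]
  rfl

/-! ### extension from a subfield over which the closure is algebraic -/

/-- **the extension lemma**: let `M`, `M'` be subfields of `ℂ` with `M ⊆ mzkCl S₁` algebraic
closure and `M' ⊆ mzkCl S₂`, such that `mzkCl S₁` is algebraic over `M` and `mzkCl S₂` is algebraic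
over `M'`. Then every isomorphism `M ≃ M'` extends to an automorphism of `ℂ`. -/
theorem mzk_exists_extend {S₁ S₂ : Set ℂ} (h₁ : S₁.Countable) (h₂ : S₂.Countable)
    (M M' : Subfield ℂ) (hM : M ≤ mzkCl S₁) (hM' : M' ≤ mzkCl S₂)
    (hS₁ : S₁ ⊆ M) (hS₂ : S₂ ⊆ M') (θ : ↥M ≃+* ↥M') :
    ∃ σ : ℂ ≃+* ℂ, ∀ x : ↥M, σ (x : ℂ) = (θ x : ℂ) := by
  letI : Algebra ↥M ↥(mzkCl S₁) := (Subfield.inclusion hM).toAlgebra
  letI : Algebra ↥M' ↥(mzkCl S₂) := (Subfield.inclusion hM').toAlgebra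
  have halg : ∀ {S : Set ℂ} {L : Subfield ℂ} (hL : L ≤ mzkCl S) (hS : S ⊆ L) (y : ↥(mzkCl S)),
      IsAlgebraic ↥L (y : ℂ) := by
    intro S L hL hS y
    have hy := y.2
    rw [mzk_mem_cl_iff] at hy
    exact mzk_isAlgebraic_mono (Subfield.closure_le.mpr hS) hy
  haveI : IsAlgClosure ↥M ↥(mzkCl S₁) :=
    { isAlgClosed := inferInstance
      isAlgebraic := ⟨fun y => by
        have h := halg hM hS₁ y
        obtain ⟨p, hp0, hp⟩ := h
        refine ⟨p, hp0, ?_⟩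
        apply Subtype.val_injective
        rw [ZeroMemClass.coe_zero, ← hp]
        have : ((aeval y) p : ↥(mzkCl S₁)) = (aeval y) p := rfl
        have h2 := Polynomial.aeval_algHom_apply
          (⟨⟨⟨⟨fun z : ↥(mzkCl S₁) => (z : ℂ), rfl⟩, fun _ _ => rfl⟩, rfl, fun _ _ => rfl⟩,
            fun _ => rfl⟩ : ↥(mzkCl S₁) →ₐ[↥M] ℂ) y p
        exact h2.symm⟩ }
  haveI : IsAlgClosure ↥M' ↥(mzkCl S₂) :=
    { isAlgClosed := inferInstance
      isAlgebraic := ⟨fun y => by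
        have h := halg hM' hS₂ y
        obtain ⟨p, hp0, hp⟩ := h
        refine ⟨p, hp0, ?_⟩
        apply Subtype.val_injective
        rw [ZeroMemClass.coe_zero, ← hp]
        have h2 := Polynomial.aeval_algHom_apply
          (⟨⟨⟨⟨fun z : ↥(mzkCl S₂) => (z : ℂ), rfl⟩, fun _ _ => rfl⟩, rfl, fun _ _ => rfl⟩,
            fun _ => rfl⟩ : ↥(mzkCl S₂) →ₐ[↥M'] ℂ) y p
        exact h2.symm⟩ }
  let θ₁ : ↥(mzkCl S₁) ≃+* ↥(mzkCl S₂) := IsAlgClosure.equivOfEquiv ↥(mzkCl S₁) ↥(mzkCl S₂) θ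
  obtain ⟨σ, hσ⟩ := mzk_exists_extend_cl h₁ h₂ θ₁
  refine ⟨σ, fun x => ?_⟩
  have h1 := hσ (algebraMap ↥M ↥(mzkCl S₁) x)
  have h2 : θ₁ (algebraMap ↥M ↥(mzkCl S₁) x) = algebraMap ↥M' ↥(mzkCl S₂) (θ x) :=
    IsAlgClosure.equivOfEquiv_algebraMap _ _ θ x
  rw [h2] at h1
  exact h1

end Fermat.Agent.Mazur
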