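/-
MAZUR (K), part 3: echelon descent in Laurent series.  A finite dimensional space of Laurent series
which is stable under a set of coefficientwise ring endomorphisms is spanned by its fixed vectors.
-/
import Mathlib
import Fermat.Agent.Lib.T1.Dict.DescentLin

set_option autoImplicit false
set_option linter.unusedSectionVars false
set_option linter.style.haveILetI false

namespace Fermat.Agent.Mazur

open ModularCurve Fermat.Agent.T1

/-- **echelon descent**: a finite dimensional space `W` of Laurent series stable under the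
coefficientwise endomorphisms in `Φ` is spanned by its `Φ`-fixed vectors -/
theorem mzk_span_fixed {k : Type*} [Field k] (Φ : Set (k →+* k)) :
    ∀ (n : ℕ) (W : Submodule k (LaurentSeries k)) [FiniteDimensional k W],
      Module.finrank k W = n → (∀ φ ∈ Φ, ∀ w ∈ W, coeffMap φ w ∈ W) →
      Submodule.span k {w | w ∈ W ∧ ∀ φ ∈ Φ, coeffMap φ w = w} = W := by
  intro n
  induction n using Nat.strong_induction_on with
  | _ n ih =>
    intro W hfd hn hW
    apply le_antisymm
    · rw [Submodule.span_le]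
      exact fun w hw => hw.1
    by_cases hbot : W = ⊥
    · rw [hbot]
      exact bot_le
    obtain ⟨w₀, hw₀W, hw₀0, hw₀fix⟩ := tdd_exists_fixed_vector W hbot
    obtain ⟨n₀, hn₀⟩ : ∃ n₀ : ℤ, w₀.coeff n₀ ≠ 0 := by
      by_contra hcon
      push Not at hcon
      exact hw₀0 (HahnSeries.ext (funext hcon))
    have hfix₀ : ∀ φ ∈ Φ, coeffMap φ w₀ = w₀ := fun φ hφ => hw₀fix φ (hW φ hφ)
    -- the hyperplane
    let W' : Submodule k (LaurentSeries k) :=
      { carrier := {w | w ∈ W ∧ w.coeff n₀ = 0}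
        zero_mem' := ⟨W.zero_mem, by simp⟩
        add_mem' := by
          rintro a b ⟨ha, ha0⟩ ⟨hb, hb0⟩
          exact ⟨W.add_mem ha hb, by rw [HahnSeries.coeff_add, ha0, hb0, add_zero]⟩
        smul_mem' := by
          rintro c a ⟨ha, ha0⟩
          exact ⟨W.smul_mem c ha, by rw [HahnSeries.coeff_smul, ha0, smul_zero]⟩ }
    have hW'le : W' ≤ W := fun w hw => hw.1
    have hW'lt : W' < W := by
      refine lt_of_le_of_ne hW'le ?_
      intro heq
      have : w₀ ∈ W' := heq ▸ hw₀W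
      exact hn₀ this.2
    haveI : FiniteDimensional k W' := Submodule.finiteDimensional_of_le hW'le
    have hlt : Module.finrank k W' < n := hn ▸ Submodule.finrank_lt_finrank_of_lt hW'lt
    have hW'stab : ∀ φ ∈ Φ, ∀ w ∈ W', coeffMap φ w ∈ W' := by
      rintro φ hφ w ⟨hw, hw0⟩
      exact ⟨hW φ hφ w hw, by rw [coeffMap_coeff, hw0, map_zero]⟩
    have hIH := ih _ hlt W' rfl hW'stab
    intro w hw
    -- decompose `w = c • w₀ + w'`
    set c : k := w.coeff n₀ / w₀.coeff n₀ with hc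
    have hw' : w - c • w₀ ∈ W' := by
      refine ⟨W.sub_mem hw (W.smul_mem c hw₀W), ?_⟩
      rw [HahnSeries.coeff_sub, HahnSeries.coeff_smul, smul_eq_mul, hc, div_mul_cancel₀ _ hn₀,
        sub_self]
    have h1 : w - c • w₀ ∈ Submodule.span k {w | w ∈ W ∧ ∀ φ ∈ Φ, coeffMap φ w = w} := by
      rw [← hIH] at hw'
      refine Submodule.span_mono ?_ hw'
      rintro x ⟨hx, hxfix⟩
      exact ⟨hW'le hx, hxfix⟩
    have h2 : c • w₀ ∈ Submodule.span k {w | w ∈ W ∧ ∀ φ ∈ Φ, coeffMap φ w = w} :=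
      Submodule.smul_mem _ c (Submodule.subset_span ⟨hw₀W, hfix₀⟩)
    have := Submodule.add_mem _ h1 h2
    rwa [sub_add_cancel] at this

theorem mzk_span_fixed' {k : Type*} [Field k] (Φ : Set (k →+* k))
    (W : Submodule k (LaurentSeries k)) [FiniteDimensional k W]
    (hW : ∀ φ ∈ Φ, ∀ w ∈ W, coeffMap φ w ∈ W) :
    Submodule.span k {w | w ∈ W ∧ ∀ φ ∈ Φ, coeffMap φ w = w} = W :=
  mzk_span_fixed Φ _ W rfl hW

/-- a nonzero stable space contains a nonzero fixed vector -/
theorem mzk_exists_fixed_ne_zero {k : Type*} [Field k] (Φ : Set (k →+* k))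
    (W : Submodule k (LaurentSeries k)) [FiniteDimensional k W] (hbot : W ≠ ⊥)
    (hW : ∀ φ ∈ Φ, ∀ w ∈ W, coeffMap φ w ∈ W) :
    ∃ w ∈ W, w ≠ 0 ∧ ∀ φ ∈ Φ, coeffMap φ w = w := by
  obtain ⟨w₀, hw₀W, hw₀0, hw₀fix⟩ := tdd_exists_fixed_vector W hbot
  exact ⟨w₀, hw₀W, hw₀0, fun φ hφ => hw₀fix φ (hW φ hφ)⟩

end Fermat.Agent.Mazur
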