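/-
MAZUR (K), part 4: the function field `F = ℂ(X₀(N)) ⊂ ℂ((q))` with the coefficientwise action of
`Aut(ℂ/ℚ)`: values at places, the `j`-value of a place, the cusp `∞`, functions defined over
`mzkCl S`, echelon descent for subspaces of `F`.
-/
import Mathlib
import Fermat.Agent.Lib.T1.Dict.DescentRR
import Fermat.Agent.Lib.Curve.RiemannRoch
import Fermat.Agent.Lib.Curve.PlaceOfValuation
import Fermat.Agent.Lib.Mazur.K.Field
import Fermat.Agent.Lib.Mazur.K.Echelon
import Fermat.Agent.Lib.T1.Desc.PowDesc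

set_option autoImplicit false
set_option linter.unusedSectionVars false
set_option linter.style.haveILetI false
set_option linter.unusedVariables false

namespace Fermat.Agent.Mazur

open AlgebraicCurve ModularCurve Fermat.Agent.T1 Fermat.Agent.Curve Fermat.Agent.Curve.PlaceAux
open Fermat.Agent.Curve.RRAux
open WithZero

variable (N : ℕ) [NeZero N]

/-- the function field of `X₀(N)` over `ℂ` -/
abbrev MzF : Type := ↥(KMod.barField ℂ N)

/-- `j` as an element of the function field -/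
noncomputable abbrev mzkj : MzF N := KMod.jBar ℂ N

theorem mzkHx : IsFunctionFieldGen ℂ (MzF N) (mzkj N) := KMod.isFunctionFieldGen_jBar ℂ N

/-- the action of `Aut(ℂ/ℚ)` on the function field -/
noncomputable abbrev mzkG (σ : ℂ ≃ₐ[ℚ] ℂ) : SemilinearAut ℂ (MzF N) := KMod.galF ℂ N σ

variable {N}

theorem mzk_coe_smul (σ : ℂ ≃ₐ[ℚ] ℂ) (f : MzF N) :
    ((mzkG N σ • f : MzF N) : LaurentSeries ℂ) = coeffMap (σ : ℂ →+* ℂ) (f : LaurentSeries ℂ) :=
  rfl

theorem mzkG_mul (σ τ : ℂ ≃ₐ[ℚ] ℂ) : mzkG N (σ * τ) = mzkG N σ * mzkG N τ := map_mul _ σ τ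

theorem mzkG_one : mzkG N 1 = 1 := map_one _

theorem mzkG_inv (σ : ℂ ≃ₐ[ℚ] ℂ) : mzkG N σ⁻¹ = (mzkG N σ)⁻¹ := map_inv _ σ

theorem mzk_smul_j (σ : ℂ ≃ₐ[ℚ] ℂ) : mzkG N σ • mzkj N = mzkj N := KMod.galF_smul_jBar ℂ N σ

theorem mzk_smul_algebraMap (σ : ℂ ≃ₐ[ℚ] ℂ) (c : ℂ) :
    mzkG N σ • algebraMap ℂ (MzF N) c = algebraMap ℂ (MzF N) (σ c) := by
  rw [SemilinearAut.smul_algebraMap]
  rfl

theorem mzk_ord_smul (σ : ℂ ≃ₐ[ℚ] ℂ) (v : Place ℂ (MzF N)) (f : MzF N) :
    (mzkG N σ • v).ord (mzkG N σ • f) = v.ord f := SemilinearAut.ord_smul _ v f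

theorem mzk_ord_smul' (σ : ℂ ≃ₐ[ℚ] ℂ) (v : Place ℂ (MzF N)) (f : MzF N) :
    (mzkG N σ • v).ord f = v.ord ((mzkG N σ)⁻¹ • f) := by
  have h := mzk_ord_smul σ v ((mzkG N σ)⁻¹ • f)
  rwa [smul_inv_smul] at h

theorem mzk_smul_ne_zero (σ : ℂ ≃ₐ[ℚ] ℂ) {f : MzF N} (hf : f ≠ 0) : mzkG N σ • f ≠ 0 :=
  (smul_ne_zero_iff_ne _).mpr hf

theorem mzk_smul_mem (σ : ℂ ≃ₐ[ℚ] ℂ) {v : Place ℂ (MzF N)} {f : MzF N}
    (hf : f ∈ v.toValuationSubring) : mzkG N σ • f ∈ (mzkG N σ • v).toValuationSubring := by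
  rw [mem_iff] at hf ⊢
  rcases hf with rfl | hf
  · left
    exact smul_zero _
  · right
    rwa [mzk_ord_smul]

theorem mzk_ordGE_smul (σ : ℂ ≃ₐ[ℚ] ℂ) {v : Place ℂ (MzF N)} {f : MzF N} {n : ℤ}
    (hf : OrdGE v f n) : OrdGE (mzkG N σ • v) (mzkG N σ • f) n := by
  rw [ordGE_iff] at hf ⊢
  rcases hf with rfl | hf
  · left
    exact smul_zero _
  · right
    rwa [mzk_ord_smul]

/-! ### values at places -/

/-- the value of `f` at the place `v` (`0` if `f` has a pole) -/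
noncomputable def mzkVal (v : Place ℂ (MzF N)) (f : MzF N) : ℂ := resConst (mzkHx N) v f

theorem mzkVal_spec {v : Place ℂ (MzF N)} {f : MzF N} (hf : f ∈ v.toValuationSubring) :
    OrdGE v (f - algebraMap ℂ (MzF N) (mzkVal v f)) 1 := resConst_spec (mzkHx N) v hf

theorem mzkVal_eq {v : Place ℂ (MzF N)} {f : MzF N} {c : ℂ}
    (hc : OrdGE v (f - algebraMap ℂ (MzF N) c) 1) : mzkVal v f = c := resConst_eq (mzkHx N) v hc

theorem mzkVal_of_notMem {v : Place ℂ (MzF N)} {f : MzF N} (hf : f ∉ v.toValuationSubring) :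
    mzkVal v f = 0 := by
  rw [mzkVal, resConst, dif_neg hf]

theorem mzkVal_add {v : Place ℂ (MzF N)} {f g : MzF N} (hf : f ∈ v.toValuationSubring)
    (hg : g ∈ v.toValuationSubring) : mzkVal v (f + g) = mzkVal v f + mzkVal v g :=
  resConst_add (mzkHx N) v hf hg

theorem mzkVal_smul {v : Place ℂ (MzF N)} (a : ℂ) {f : MzF N} (hf : f ∈ v.toValuationSubring) :
    mzkVal v (a • f) = a * mzkVal v f := resConst_smul (mzkHx N) v a hf

theorem mzkVal_algebraMap (v : Place ℂ (MzF N)) (c : ℂ) :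
    mzkVal v (algebraMap ℂ (MzF N) c) = c := resConst_algebraMap (mzkHx N) v c

theorem mzkVal_eq_zero_iff {v : Place ℂ (MzF N)} {f : MzF N} (hf : f ∈ v.toValuationSubring) :
    mzkVal v f = 0 ↔ OrdGE v f 1 := resConst_eq_zero_iff (mzkHx N) v hf

theorem mzkVal_mul {v : Place ℂ (MzF N)} {f g : MzF N} (hf : f ∈ v.toValuationSubring)
    (hg : g ∈ v.toValuationSubring) : mzkVal v (f * g) = mzkVal v f * mzkVal v g := by
  apply mzkVal_eq
  have h1 := mzkVal_spec hf
  have h2 := mzkVal_spec hg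
  have hg0 : OrdGE v g 0 := (ordGE_zero_iff_mem v).mpr hg
  have hc0 : OrdGE v (algebraMap ℂ (MzF N) (mzkVal v f)) 0 :=
    (ordGE_zero_iff_mem v).mpr (algebraMap_mem v _)
  have h3 : OrdGE v ((f - algebraMap ℂ (MzF N) (mzkVal v f)) * g) (1 + 0) := h1.mul v hg0
  have h4 : OrdGE v (algebraMap ℂ (MzF N) (mzkVal v f) * (g - algebraMap ℂ (MzF N) (mzkVal v g)))
      (0 + 1) := hc0.mul v h2
  have h5 := (h3.mono v (by norm_num : (1 : ℤ) ≤ 1 + 0)).add v
    (h4.mono v (by norm_num : (1 : ℤ) ≤ 0 + 1))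
  have : (f - algebraMap ℂ (MzF N) (mzkVal v f)) * g
      + algebraMap ℂ (MzF N) (mzkVal v f) * (g - algebraMap ℂ (MzF N) (mzkVal v g))
      = f * g - algebraMap ℂ (MzF N) (mzkVal v f * mzkVal v g) := by
    rw [map_mul]
    ring
  rwa [this] at h5

/-- equivariance of values -/
theorem mzkVal_smul_smul (σ : ℂ ≃ₐ[ℚ] ℂ) (v : Place ℂ (MzF N)) (f : MzF N) :
    mzkVal (mzkG N σ • v) (mzkG N σ • f) = σ (mzkVal v f) := by
  by_cases hf : f ∈ v.toValuationSubring
  · apply mzkVal_eq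
    have h := mzk_ordGE_smul σ (mzkVal_spec hf)
    rwa [smul_sub, mzk_smul_algebraMap] at h
  · have hf' : mzkG N σ • f ∉ (mzkG N σ • v).toValuationSubring := by
      intro h
      apply hf
      have h2 := mzk_smul_mem σ⁻¹ h
      rwa [mzkG_inv, inv_smul_smul, inv_smul_smul] at h2
    rw [mzkVal_of_notMem hf, mzkVal_of_notMem hf', map_zero]

/-! ### the `j`-value of a place -/

/-- the value of `j` at a place (`0` at the poles of `j`) -/
noncomputable def mzkJ (v : Place ℂ (MzF N)) : ℂ := mzkVal v (mzkj N)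

theorem mzkJ_smul (σ : ℂ ≃ₐ[ℚ] ℂ) (v : Place ℂ (MzF N)) : mzkJ (mzkG N σ • v) = σ (mzkJ v) := by
  have h := mzkVal_smul_smul σ v (mzkj N)
  rwa [mzk_smul_j] at h

theorem mzkj_sub_ne_zero (c : ℂ) : mzkj N - algebraMap ℂ (MzF N) c ≠ 0 := by
  intro h
  have h1 : mzkj N = algebraMap ℂ (MzF N) c := sub_eq_zero.mp h
  exact (mzkHx N).transcendental (h1 ▸ isAlgebraic_algebraMap c)

theorem mzkj_ne_zero : mzkj N ≠ 0 := by
  have := mzkj_sub_ne_zero (N := N) 0
  rwa [map_zero, sub_zero] at this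

/-- the fibres of the `j`-value are finite -/
theorem mzk_finite_fibre (c : ℂ) : {v : Place ℂ (MzF N) | mzkJ v = c}.Finite := by
  have h1 := finite_zeros_of (mzkHx N) (mzkj N - algebraMap ℂ (MzF N) c)
  have h2 := finite_poles_of (mzkHx N) (mzkj N)
  refine (h1.union h2).subset ?_
  intro v hv
  by_cases hj : mzkj N ∈ v.toValuationSubring
  · left
    have h3 := mzkVal_spec hj
    have hv' : mzkVal v (mzkj N) = c := hv
    rw [hv', ordGE_iff] at h3
    rcases h3 with h3 | h3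
    · exact absurd h3 (mzkj_sub_ne_zero c)
    · show 0 < v.ord _
      omega
  · right
    rw [mem_iff] at hj
    push Not at hj
    exact hj.2

/-! ### the cusp `∞` -/

open Classical in
/-- the valuation at the cusp `∞`: `f ↦ exp (-(order of the q-expansion of f))` -/
noncomputable def mzkInftyVal : Valuation (MzF N) ℤᵐ⁰ where
  toFun f := if f = 0 then 0 else exp (-(f : LaurentSeries ℂ).order)
  map_zero' := if_pos rfl
  map_one' := by
    rw [if_neg one_ne_zero]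
    show exp (-((1 : LaurentSeries ℂ)).order) = 1
    rw [HahnSeries.order_one, neg_zero, exp_zero]
  map_mul' f g := by
    by_cases hf : f = 0
    · simp [hf]
    by_cases hg : g = 0
    · simp [hg]
    have hf' : (f : LaurentSeries ℂ) ≠ 0 := fun h => hf (Subtype.ext h)
    have hg' : (g : LaurentSeries ℂ) ≠ 0 := fun h => hg (Subtype.ext h)
    rw [if_neg hf, if_neg hg, if_neg (mul_ne_zero hf hg), ← exp_add]
    show exp (-((f : LaurentSeries ℂ) * (g : LaurentSeries ℂ)).order) = _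
    rw [HahnSeries.order_mul hf' hg']
    congr 1
    ring
  map_add_le_max' f g := by
    by_cases hf : f = 0
    · simp [hf]
    by_cases hg : g = 0
    · simp [hg]
    by_cases hfg : f + g = 0
    · rw [if_pos hfg]; exact zero_le
    have hfg' : (f : LaurentSeries ℂ) + (g : LaurentSeries ℂ) ≠ 0 := fun h => hfg (Subtype.ext h)
    rw [if_neg hf, if_neg hg, if_neg hfg, le_max_iff, exp_le_exp, exp_le_exp]
    have h1 := HahnSeries.min_order_le_order_add (x := (f : LaurentSeries ℂ))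
      (y := (g : LaurentSeries ℂ)) hfg'
    show -((f : LaurentSeries ℂ) + (g : LaurentSeries ℂ)).order ≤ _ ∨
      -((f : LaurentSeries ℂ) + (g : LaurentSeries ℂ)).order ≤ _
    rcases min_le_iff.mp h1 with h | h
    · left; omega
    · right; omega

theorem mzkInftyVal_apply {f : MzF N} (hf : f ≠ 0) :
    mzkInftyVal f = exp (-(f : LaurentSeries ℂ).order) := if_neg hf

theorem mzk_order_j : ((mzkj N : MzF N) : LaurentSeries ℂ).order = -1 := by
  have hc : ((mzkj N : MzF N) : LaurentSeries ℂ) = jqModC ℂ := KMod.coe_jBar ℂ N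
  rw [hc]
  have h1 : (jqModC ℂ).coeff (-1 : ℤ) = 1 := coeff_jqModC_neg_one ℂ
  have hne : jqModC ℂ ≠ 0 := by
    intro h
    rw [h] at h1
    simp at h1
  apply le_antisymm
  · exact HahnSeries.order_le_of_coeff_ne_zero (by rw [h1]; exact one_ne_zero)
  · by_contra hlt
    push Not at hlt
    have h2 : (jqModC ℂ).coeff (jqModC ℂ).order = 0 := by
      have := coeff_jqModC_pow_of_lt ℂ (b := 1) (m := (jqModC ℂ).order) (by simpa using hlt)
      rwa [pow_one] at this
    exact hne (HahnSeries.coeff_order_eq_zero.mp h2)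

/-- the cusp `∞` as a place of the function field -/
noncomputable def mzkO : Place ℂ (MzF N) :=
  placeOfValuation (mzkInftyVal (N := N))
    (fun c => by
      by_cases hc : c = 0
      · rw [hc, map_zero, map_zero]; exact zero_le_one
      · have h0 : algebraMap ℂ (MzF N) c ≠ 0 := by
          rwa [Ne, map_eq_zero]
        rw [mzkInftyVal_apply h0]
        have : ((algebraMap ℂ (MzF N) c : MzF N) : LaurentSeries ℂ) = HahnSeries.C c := by
          show algebraMap ℂ (LaurentSeries ℂ) c = HahnSeries.C c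
          rw [algebraMap_laurentSeries_eq_single, HahnSeries.C_apply]
        rw [this, HahnSeries.order_C, neg_zero, exp_zero])
    ⟨mzkj N, mzkj_ne_zero, by
      rw [mzkInftyVal_apply mzkj_ne_zero, mzk_order_j]
      intro h
      have : exp (-(-1 : ℤ)) = exp (0 : ℤ) := by rw [h, exp_zero]
      have h2 := exp_injective this
      norm_num at h2⟩

theorem mzk_mem_O_iff (f : MzF N) :
    f ∈ (mzkO (N := N)).toValuationSubring ↔ f = 0 ∨ 0 ≤ (f : LaurentSeries ℂ).order := by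
  rw [mzkO, mem_placeOfValuation_iff]
  by_cases hf : f = 0
  · simp [hf]
  · rw [mzkInftyVal_apply hf, ← exp_zero, exp_le_exp]
    constructor
    · intro h; right; omega
    · rintro (h | h)
      · exact absurd h hf
      · omega

/-- the cusp `∞` is fixed by `Aut(ℂ/ℚ)` -/
theorem mzk_smul_O (σ : ℂ ≃ₐ[ℚ] ℂ) : mzkG N σ • mzkO (N := N) = mzkO := by
  apply Place.ext
  ext f
  rw [SemilinearAut.smul_toValuationSubring, ValuationSubring.mem_pointwise_smul_iff_inv_smul_mem,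
    mzk_mem_O_iff, mzk_mem_O_iff, ← mzkG_inv]
  have hord : (((mzkG N σ⁻¹ • f : MzF N)) : LaurentSeries ℂ).order = (f : LaurentSeries ℂ).order := by
    rw [mzk_coe_smul]
    exact tdx_order_coeffMap _ _
  rw [hord, smul_eq_zero_iff_eq]

theorem mzk_j_notMem_O : mzkj N ∉ (mzkO (N := N)).toValuationSubring := by
  rw [mzk_mem_O_iff, mzk_order_j]
  push Not
  exact ⟨mzkj_ne_zero, by norm_num⟩

theorem mzkJ_O : mzkJ (mzkO (N := N)) = 0 := mzkVal_of_notMem mzk_j_notMem_O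

/-! ### functions defined over `mzkCl S` -/

/-- `f` has all its `q`-coefficients in `mzkCl S` -/
def mzkDef (S : Set ℂ) (f : MzF N) : Prop := ∀ n : ℤ, (f : LaurentSeries ℂ).coeff n ∈ mzkCl S

theorem mzkDef_iff_fixed {S : Set ℂ} {f : MzF N} :
    mzkDef S f ↔ ∀ σ ∈ mzkH S, mzkG N σ • f = f := by
  constructor
  · intro h σ hσ
    apply Subtype.ext
    rw [mzk_coe_smul]
    ext n
    rw [coeffMap_coeff]
    exact hσ _ (h n)
  · intro h n
    apply mzk_mem_cl_of_fixed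
    intro σ hσ
    have h1 := congrArg (fun g : MzF N => (g : LaurentSeries ℂ).coeff n) (h σ hσ)
    simp only [mzk_coe_smul, coeffMap_coeff] at h1
    exact h1

theorem mzkDef_mono {S T : Set ℂ} (h : S ⊆ T) {f : MzF N} (hf : mzkDef S f) : mzkDef T f :=
  fun n => mzkCl_mono h (hf n)

theorem mzkDef_j (S : Set ℂ) : mzkDef S (mzkj N) := by
  rw [mzkDef_iff_fixed]
  exact fun σ _ => mzk_smul_j σ

theorem mzkDef_algebraMap {S : Set ℂ} {c : ℂ} (hc : c ∈ mzkCl S) :
    mzkDef S (algebraMap ℂ (MzF N) c) := by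
  rw [mzkDef_iff_fixed]
  intro σ hσ
  rw [mzk_smul_algebraMap, hσ c hc]

theorem mzkDef_sub {S : Set ℂ} {f g : MzF N} (hf : mzkDef S f) (hg : mzkDef S g) :
    mzkDef S (f - g) := by
  rw [mzkDef_iff_fixed] at hf hg ⊢
  intro σ hσ
  rw [smul_sub, hf σ hσ, hg σ hσ]

theorem mzkDef_smul {S : Set ℂ} {σ : ℂ ≃ₐ[ℚ] ℂ} (hσ : σ ∈ mzkH S) {f : MzF N} (hf : mzkDef S f) :
    mzkG N σ • f = f := mzkDef_iff_fixed.mp hf σ hσ

/-- a value of a function defined over `mzkCl S` at a place fixed by `mzkH S` lies in `mzkCl S` -/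
theorem mzkVal_mem_cl {S : Set ℂ} {f : MzF N} (hf : mzkDef S f) {v : Place ℂ (MzF N)}
    (hv : ∀ σ ∈ mzkH S, mzkG N σ • v = v) : mzkVal v f ∈ mzkCl S := by
  apply mzk_mem_cl_of_fixed
  intro σ hσ
  have h := mzkVal_smul_smul σ v f
  rw [hv σ hσ, mzkDef_smul hσ hf] at h
  exact h.symm

/-! ### echelon descent for subspaces of `F` -/

/-- **echelon descent**: a finite dimensional subspace of `F` stable under `mzkH S` is spanned by
its elements defined over `mzkCl S` -/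
theorem mzk_span_def (S : Set ℂ) (W : Submodule ℂ (MzF N)) [FiniteDimensional ℂ W]
    (hW : ∀ σ ∈ mzkH S, ∀ w ∈ W, mzkG N σ • w ∈ W) :
    Submodule.span ℂ {w | w ∈ W ∧ mzkDef S w} = W := by
  apply le_antisymm
  · rw [Submodule.span_le]
    exact fun w hw => hw.1
  let ι : MzF N →ₗ[ℂ] LaurentSeries ℂ :=
    { toFun := fun f => (f : LaurentSeries ℂ)
      map_add' := fun _ _ => rfl
      map_smul' := fun c f => by
        simp only [RingHom.id_apply]
        rw [← HahnSeries.C_mul_eq_smul, Algebra.smul_def]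
        show algebraMap ℂ (LaurentSeries ℂ) c * (f : LaurentSeries ℂ) = _
        rw [algebraMap_laurentSeries_eq_single, HahnSeries.C_apply] }
  have hι : ∀ f : MzF N, ι f = (f : LaurentSeries ℂ) := fun _ => rfl
  have hιinj : Function.Injective ι := Subtype.val_injective
  let Φ : Set (ℂ →+* ℂ) := {φ | ∃ σ ∈ mzkH S, φ = (σ : ℂ →+* ℂ)}
  haveI : FiniteDimensional ℂ ↥(W.map ι) := inferInstance
  have hstab : ∀ φ ∈ Φ, ∀ w ∈ W.map ι, coeffMap φ w ∈ W.map ι := by
    rintro φ ⟨σ, hσ, rfl⟩ w ⟨f, hf, rfl⟩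
    exact ⟨mzkG N σ • f, hW σ hσ f hf, rfl⟩
  have hspan := mzk_span_fixed' Φ (W.map ι) hstab
  have hset : {w | w ∈ W.map ι ∧ ∀ φ ∈ Φ, coeffMap φ w = w} = ι '' {w | w ∈ W ∧ mzkDef S w} := by
    ext w
    constructor
    · rintro ⟨⟨f, hf, rfl⟩, hfix⟩
      refine ⟨f, ⟨hf, ?_⟩, rfl⟩
      rw [mzkDef_iff_fixed]
      intro σ hσ
      apply Subtype.ext
      exact hfix _ ⟨σ, hσ, rfl⟩
    · rintro ⟨f, ⟨hf, hdef⟩, rfl⟩
      refine ⟨⟨f, hf, rfl⟩, ?_⟩
      rintro φ ⟨σ, hσ, rfl⟩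
      have := mzkDef_smul hσ hdef
      exact congrArg (fun g : MzF N => (g : LaurentSeries ℂ)) this
  rw [hset, Submodule.span_image] at hspan
  intro w hw
  have h1 : ι w ∈ (Submodule.span ℂ {w | w ∈ W ∧ mzkDef S w}).map ι := by
    rw [hspan]
    exact ⟨w, hw, rfl⟩
  obtain ⟨w', hw', hww'⟩ := h1
  rwa [← hιinj hww']

/-- a nonzero stable subspace contains a nonzero element defined over `mzkCl S` -/
theorem mzk_exists_def_ne_zero (S : Set ℂ) (W : Submodule ℂ (MzF N)) [FiniteDimensional ℂ W]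
    (hbot : W ≠ ⊥) (hW : ∀ σ ∈ mzkH S, ∀ w ∈ W, mzkG N σ • w ∈ W) :
    ∃ w ∈ W, w ≠ 0 ∧ mzkDef S w := by
  by_contra hcon
  push Not at hcon
  apply hbot
  rw [← mzk_span_def S W hW, Submodule.span_eq_bot]
  rintro w ⟨hw, hdef⟩
  by_contra hw0
  exact hcon w hw hw0 hdef

end Fermat.Agent.Mazur
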