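/-
MAZUR (K), part 5: the Riemann–Roch toolkit on `F = ℂ(X₀(N))`: the `Aut(ℂ/ℚ)`-stable canonical
divisor `div(dj)`, `ℓ(σD) = ℓ(D)`, `ℓ(D - P)`, separation of points, sums of places.
-/
import Mathlib
import Fermat.Agent.Lib.Mazur.K.Setup
import Fermat.Agent.Lib.Curve.Hurwitz
import Fermat.Agent.Lib.Curve.DictAlg

set_option autoImplicit false
set_option linter.unusedSectionVars false
set_option linter.style.haveILetI false
set_option linter.unusedVariables false

namespace Fermat.Agent.Mazur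

open AlgebraicCurve ModularCurve Fermat.Agent.T1 Fermat.Agent.Curve Fermat.Agent.Curve.PlaceAux
open Fermat.Agent.Curve.RRAux
open WithZero KaehlerDifferential

variable (N : ℕ) [NeZero N]

/-- the genus of `X₀(N)` -/
noncomputable abbrev mzkg : ℕ := genusR ℂ (MzF N)

theorem mzkdj_ne_zero : D ℂ (MzF N) (mzkj N) ≠ 0 := D_gen_ne_zero (mzkHx N)

/-- the canonical divisor `div(dj)` -/
noncomputable def mzkW : Divisor ℂ (MzF N) := divDiff (mzkHx N) (D ℂ (MzF N) (mzkj N))

/-- **Riemann–Roch** -/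
theorem mzk_rr (E : Divisor ℂ (MzF N)) :
    (ell E : ℤ) = Divisor.degree E + 1 - mzkg N + ell (mzkW N - E) :=
  riemannRoch (mzkHx N) (thetaOf_ne_zero (mzkHx N) (mzkdj_ne_zero N))
    (fun _ hf E' => isWeilDiff_smulWeil_thetaOf_iff (mzkHx N) (mzkdj_ne_zero N) hf E') E

theorem mzk_ell_W : ell (mzkW N) = mzkg N := ell_divDiff (mzkHx N) (mzkdj_ne_zero N)

theorem mzk_degree_W : Divisor.degree (mzkW N) = 2 * (mzkg N : ℤ) - 2 :=
  degree_divDiff (mzkHx N) (mzkdj_ne_zero N)

variable {N}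

theorem mzk_ell_of_lt {E : Divisor ℂ (MzF N)} (h : 2 * (mzkg N : ℤ) - 2 < Divisor.degree E) :
    (ell E : ℤ) = Divisor.degree E + 1 - mzkg N := by
  have h1 := mzk_rr N E
  have h2 : riemannRochSpace (mzkW N - E) = ⊥ := by
    apply riemannRochSpace_eq_bot (mzkHx N)
    rw [map_sub, mzk_degree_W]
    omega
  have h3 : ell (mzkW N - E) = 0 := by
    rw [ell, h2, finrank_bot]
  rw [h3] at h1
  simpa using h1

theorem mzkW_apply_smul (σ : ℂ ≃ₐ[ℚ] ℂ) (v : Place ℂ (MzF N)) :
    mzkW N (mzkG N σ • v) = mzkW N v := by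
  rw [mzkW, divDiff_apply _ (mzkdj_ne_zero N), divDiff_apply _ (mzkdj_ne_zero N)]
  have key : ∀ (τ : ℂ ≃ₐ[ℚ] ℂ) (w : Place ℂ (MzF N)),
      (w.ord (mzkj N) < 0 → (mzkG N τ • w).ord (mzkj N) < 0) ∧
      ∀ a : ℂ, 0 < w.ord (mzkj N - algebraMap ℂ (MzF N) a) →
        0 < (mzkG N τ • w).ord (mzkj N - algebraMap ℂ (MzF N) (τ a)) := by
    intro τ w
    constructor
    · intro h
      have := mzk_ord_smul τ w (mzkj N)
      rw [mzk_smul_j] at this
      omega
    · intro a h
      have := mzk_ord_smul τ w (mzkj N - algebraMap ℂ (MzF N) a)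
      rw [smul_sub, mzk_smul_j, mzk_smul_algebraMap] at this
      omega
  rcases ordDifferential_D_gen (mzkHx N) v with ⟨h1, h2⟩ | ⟨a, h1, h2⟩
  · have h3 := (key σ v).1 h1
    rw [h2, ordDifferential_D_of_neg (mzkHx N) _ _ h3]
    have := mzk_ord_smul σ v (mzkj N)
    rw [mzk_smul_j] at this
    omega
  · have h3 := (key σ v).2 a h1
    rw [h2, ordDifferential_D_of_pos (mzkHx N) _ _ _ h3]
    have := mzk_ord_smul σ v (mzkj N - algebraMap ℂ (MzF N) a)
    rw [smul_sub, mzk_smul_j, mzk_smul_algebraMap] at this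
    omega

theorem mzkW_smul (σ : ℂ ≃ₐ[ℚ] ℂ) : mzkG N σ • mzkW N = mzkW N := by
  ext v
  rw [SemilinearAut.divisor_smul_apply]
  have h := mzkW_apply_smul σ ((mzkG N σ)⁻¹ • v)
  rw [smul_inv_smul] at h
  exact h.symm

/-! ### the action on Riemann–Roch spaces -/

theorem mzk_smul_mem_rr (σ : ℂ ≃ₐ[ℚ] ℂ) {E : Divisor ℂ (MzF N)} {f : MzF N}
    (hf : f ∈ riemannRochSpace E) : mzkG N σ • f ∈ riemannRochSpace (mzkG N σ • E) := by
  rw [mem_riemannRochSpace_iff] at hf ⊢
  intro w
  rcases hf ((mzkG N σ)⁻¹ • w) with h | h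
  · left
    rw [h, smul_zero]
  · right
    rw [SemilinearAut.divisor_smul_apply]
    have h2 := mzk_ord_smul σ ((mzkG N σ)⁻¹ • w) f
    rw [smul_inv_smul] at h2
    rw [h2]
    exact h

theorem mzk_smul_mem_rr_iff (σ : ℂ ≃ₐ[ℚ] ℂ) {E : Divisor ℂ (MzF N)} {f : MzF N} :
    mzkG N σ • f ∈ riemannRochSpace (mzkG N σ • E) ↔ f ∈ riemannRochSpace E := by
  refine ⟨fun h => ?_, mzk_smul_mem_rr σ⟩
  have h2 := mzk_smul_mem_rr σ⁻¹ h
  rwa [mzkG_inv, inv_smul_smul, inv_smul_smul] at h2

/-- `ℓ(σD) = ℓ(D)` -/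
theorem mzk_ell_smul (σ : ℂ ≃ₐ[ℚ] ℂ) (E : Divisor ℂ (MzF N)) :
    ell (mzkG N σ • E) = ell E := by
  let j : ↥(riemannRochSpace E) ≃+ ↥(riemannRochSpace (mzkG N σ • E)) :=
    { toFun := fun f => ⟨mzkG N σ • (f : MzF N), mzk_smul_mem_rr σ f.2⟩
      invFun := fun f => ⟨(mzkG N σ)⁻¹ • (f : MzF N), by
        have h := f.2
        rw [← mzk_smul_mem_rr_iff σ, smul_inv_smul]
        exact h⟩
      left_inv := fun f => Subtype.ext (inv_smul_smul _ _)
      right_inv := fun f => Subtype.ext (smul_inv_smul _ _)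
      map_add' := fun f g => Subtype.ext (smul_add _ _ _) }
  have h := rank_eq_of_equiv_equiv (R := ℂ) (R' := ℂ) (σ : ℂ → ℂ) j σ.bijective (by
    intro r m
    apply Subtype.ext
    show mzkG N σ • (r • (m : MzF N)) = σ r • (mzkG N σ • (m : MzF N))
    rw [Algebra.smul_def, Algebra.smul_def, smul_mul', mzk_smul_algebraMap])
  rw [ell, ell, Module.finrank, Module.finrank, h]

/-! ### `L(D - P)` -/

theorem mzk_sub_single_same (E : Divisor ℂ (MzF N)) (P : Place ℂ (MzF N)) :
    (E - Finsupp.single P 1 : Divisor ℂ (MzF N)) P = E P - 1 := by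
  rw [Finsupp.sub_apply, Finsupp.single_eq_same]

theorem mzk_sub_single_of_ne (E : Divisor ℂ (MzF N)) {P v : Place ℂ (MzF N)} (h : v ≠ P) :
    (E - Finsupp.single P 1 : Divisor ℂ (MzF N)) v = E v := by
  rw [Finsupp.sub_apply, Finsupp.single_eq_of_ne h, sub_zero]

theorem mzk_mem_rr_sub_single {E : Divisor ℂ (MzF N)} {P : Place ℂ (MzF N)} {f : MzF N} :
    f ∈ riemannRochSpace (E - Finsupp.single P 1) ↔
      f ∈ riemannRochSpace E ∧ OrdGE P f (-E P + 1) := by
  rw [mem_riemannRochSpace_iff_ordGE, mem_riemannRochSpace_iff_ordGE]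
  constructor
  · intro h
    constructor
    · intro v
      have h1 := h v
      by_cases hv : v = P
      · subst hv
        rw [mzk_sub_single_same] at h1
        have h2 : -E v ≤ -(E v - 1) := by omega
        exact OrdGE.mono v h1 h2
      · rwa [mzk_sub_single_of_ne E hv] at h1
    · have h1 := h P
      rw [mzk_sub_single_same] at h1
      have h2 : -E P + 1 ≤ -(E P - 1) := by omega
      exact OrdGE.mono P h1 h2
  · rintro ⟨h1, h2⟩ v
    by_cases hv : v = P
    · subst hv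
      rw [mzk_sub_single_same]
      have h3 : -(E v - 1) ≤ -E v + 1 := by omega
      exact OrdGE.mono v h2 h3
    · rw [mzk_sub_single_of_ne E hv]
      exact h1 v

theorem mzk_rr_sub_single_le (E : Divisor ℂ (MzF N)) (P : Place ℂ (MzF N)) :
    riemannRochSpace (E - Finsupp.single P 1) ≤ riemannRochSpace E :=
  fun f hf => (mzk_mem_rr_sub_single.mp hf).1

theorem mzk_ell_le_sub_single_add_one (E : Divisor ℂ (MzF N)) (P : Place ℂ (MzF N)) :
    ell E ≤ ell (E - Finsupp.single P 1) + 1 := by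
  have hle : E - Finsupp.single P 1 ≤ E := by
    intro v
    classical
    rw [Finsupp.sub_apply, Finsupp.single_apply]
    split_ifs <;> omega
  have h := degree_sub_ell_mono (mzkHx N) hle
  have h2 : Divisor.degree (E - Finsupp.single P 1) = Divisor.degree E - 1 := by
    rw [map_sub, Divisor.degree_single, deg_eq_one (mzkHx N) P]
    norm_num
  rw [h2] at h
  omega

theorem mzk_ell_sub_single_le (E : Divisor ℂ (MzF N)) (P : Place ℂ (MzF N)) :
    ell (E - Finsupp.single P 1) ≤ ell E := by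
  haveI := finiteDimensional_riemannRochSpace (mzkHx N) E
  exact Submodule.finrank_mono (mzk_rr_sub_single_le E P)

/-- if some function of `L(D)` is not in `L(D - P)` then `ℓ(D - P) = ℓ(D) - 1` -/
theorem mzk_ell_sub_single_of_notMem {E : Divisor ℂ (MzF N)} {P : Place ℂ (MzF N)} {f : MzF N}
    (hf : f ∈ riemannRochSpace E) (hf' : f ∉ riemannRochSpace (E - Finsupp.single P 1)) :
    ell (E - Finsupp.single P 1) + 1 = ell E := by
  haveI := finiteDimensional_riemannRochSpace (mzkHx N) E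
  have hlt : riemannRochSpace (E - Finsupp.single P 1) < riemannRochSpace E := by
    refine lt_of_le_of_ne (mzk_rr_sub_single_le E P) ?_
    intro h
    rw [h] at hf'
    exact hf' hf
  have h1 := Submodule.finrank_lt_finrank_of_lt hlt
  have h2 := mzk_ell_le_sub_single_add_one E P
  rw [ell] at h2 ⊢
  rw [ell] at h2 ⊢
  omega

/-! ### sums of places -/

/-- `P₀ + ⋯ + P_{n-1}` -/
noncomputable def mzkSum (P : ℕ → Place ℂ (MzF N)) (n : ℕ) : Divisor ℂ (MzF N) :=
  ∑ i ∈ Finset.range n, Finsupp.single (P i) 1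

theorem mzkSum_zero (P : ℕ → Place ℂ (MzF N)) : mzkSum P 0 = 0 := by
  rw [mzkSum, Finset.range_zero, Finset.sum_empty]

theorem mzkSum_succ (P : ℕ → Place ℂ (MzF N)) (n : ℕ) :
    mzkSum P (n + 1) = mzkSum P n + Finsupp.single (P n) 1 := by
  rw [mzkSum, Finset.sum_range_succ, mzkSum]

theorem mzkSum_nonneg (P : ℕ → Place ℂ (MzF N)) (n : ℕ) : 0 ≤ mzkSum P n := by
  induction n with
  | zero => rw [mzkSum_zero]
  | succ n ih =>
    rw [mzkSum_succ]
    refine add_nonneg ih ?_
    intro v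
    classical
    rw [Finsupp.single_apply]
    split_ifs <;> simp

theorem mzk_degree_single (P : Place ℂ (MzF N)) (n : ℤ) :
    Divisor.degree (Finsupp.single P n) = n := by
  rw [Divisor.degree_single, deg_eq_one (mzkHx N) P]
  norm_num

theorem mzk_degree_sum (P : ℕ → Place ℂ (MzF N)) (n : ℕ) : Divisor.degree (mzkSum P n) = n := by
  induction n with
  | zero => rw [mzkSum_zero, map_zero]; rfl
  | succ n ih =>
    rw [mzkSum_succ, map_add, ih, mzk_degree_single]
    push_cast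
    ring

theorem mzkSum_congr {P Q : ℕ → Place ℂ (MzF N)} {n : ℕ} (h : ∀ i < n, P i = Q i) :
    mzkSum P n = mzkSum Q n := by
  rw [mzkSum, mzkSum]
  apply Finset.sum_congr rfl
  intro i hi
  rw [h i (Finset.mem_range.mp hi)]

theorem mzk_smul_sum (σ : ℂ ≃ₐ[ℚ] ℂ) (P : ℕ → Place ℂ (MzF N)) (n : ℕ) :
    mzkG N σ • mzkSum P n = mzkSum (fun i => mzkG N σ • P i) n := by
  rw [mzkSum, mzkSum, Finset.smul_sum]
  apply Finset.sum_congr rfl
  intro i _
  rw [SemilinearAut.smul_single]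

theorem mzkSum_apply_ne_zero {P : ℕ → Place ℂ (MzF N)} {n : ℕ} {v : Place ℂ (MzF N)}
    (h : mzkSum P n v ≠ 0) : ∃ i < n, P i = v := by
  induction n with
  | zero => rw [mzkSum_zero] at h; exact absurd rfl h
  | succ n ih =>
    rw [mzkSum_succ, Finsupp.add_apply] at h
    by_cases h1 : mzkSum P n v = 0
    · rw [h1, zero_add] at h
      classical
      rw [Finsupp.single_apply] at h
      split_ifs at h with h2
      · exact ⟨n, Nat.lt_succ_self n, h2⟩
      · exact absurd rfl h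
    · obtain ⟨i, hi, hv⟩ := ih h1
      exact ⟨i, Nat.lt_succ_of_lt hi, hv⟩

theorem mzkSum_apply_pos {P : ℕ → Place ℂ (MzF N)} {n i : ℕ} (hi : i < n) :
    0 < mzkSum P n (P i) := by
  induction n with
  | zero => exact absurd hi (Nat.not_lt_zero i)
  | succ n ih =>
    rw [mzkSum_succ, Finsupp.add_apply]
    rcases Nat.lt_succ_iff_lt_or_eq.mp hi with h | h
    · have h1 := ih h
      have h2 : 0 ≤ (Finsupp.single (P n) (1 : ℤ)) (P i) := by
        classical
        rw [Finsupp.single_apply]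
        split_ifs <;> simp
      omega
    · subst h
      have h1 := mzkSum_nonneg P i (P i)
      rw [Finsupp.single_eq_same]
      have : (0 : ℤ) ≤ mzkSum P i (P i) := h1
      omega

/-- every effective divisor of degree `n` is a sum of `n` places -/
theorem mzk_exists_sum (n : ℕ) : ∀ (E : Divisor ℂ (MzF N)), 0 ≤ E → Divisor.degree E = n →
    ∃ P : ℕ → Place ℂ (MzF N), E = mzkSum P n := by
  induction n with
  | zero =>
    intro E hE hdeg
    obtain ⟨v₀⟩ := exists_place (mzkHx N)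
    refine ⟨fun _ => v₀, ?_⟩
    rw [mzkSum_zero]
    by_contra hne
    obtain ⟨v, hv⟩ : ∃ v, E v ≠ 0 := by
      by_contra hcon
      push Not at hcon
      exact hne (Finsupp.ext hcon)
    have hv' : 0 < E v := lt_of_le_of_ne (hE v) (Ne.symm hv)
    have h1 : 0 ≤ E - Finsupp.single v 1 := by
      intro w
      by_cases hw : w = v
      · subst hw
        rw [mzk_sub_single_same]
        show (0 : ℤ) ≤ E w - 1
        omega
      · rw [mzk_sub_single_of_ne E hw]
        exact hE w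
    have h2 := degree_nonneg_of_nonneg h1
    rw [map_sub, mzk_degree_single, hdeg] at h2
    simp at h2
  | succ n ih =>
    intro E hE hdeg
    obtain ⟨v, hv⟩ : ∃ v, E v ≠ 0 := by
      by_contra hcon
      push Not at hcon
      have : E = 0 := Finsupp.ext hcon
      rw [this, map_zero] at hdeg
      have : (0 : ℤ) < ((n + 1 : ℕ) : ℤ) := by positivity
      omega
    have hv' : 0 < E v := lt_of_le_of_ne (hE v) (Ne.symm hv)
    have h1 : 0 ≤ E - Finsupp.single v 1 := by
      intro w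
      by_cases hw : w = v
      · subst hw
        rw [mzk_sub_single_same]
        show (0 : ℤ) ≤ E w - 1
        omega
      · rw [mzk_sub_single_of_ne E hw]
        exact hE w
    have h2 : Divisor.degree (E - Finsupp.single v 1) = n := by
      rw [map_sub, mzk_degree_single, hdeg]
      push_cast
      ring
    obtain ⟨P, hP⟩ := ih _ h1 h2
    refine ⟨fun i => if i < n then P i else v, ?_⟩
    rw [mzkSum_succ, if_neg (lt_irrefl n)]
    have h3 : mzkSum (fun i => if i < n then P i else v) n = mzkSum P n :=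
      mzkSum_congr fun i hi => if_pos hi
    rw [h3, ← hP, sub_add_cancel]

/-! ### linear equivalence -/

theorem mzk_principal_iff {E : Divisor ℂ (MzF N)} :
    E ∈ Divisor.principal (K := ℂ) (F := MzF N) ↔ ∃ f : MzF N, f ≠ 0 ∧ E = divOf (mzkHx N) f := by
  constructor
  · rintro ⟨f, hf, h⟩
    refine ⟨f, hf, ?_⟩
    ext v
    rw [h v, divOf_apply (mzkHx N) hf]
  · rintro ⟨f, hf, rfl⟩
    exact ⟨f, hf, fun v => divOf_apply (mzkHx N) hf v⟩

theorem mzk_one_mem_rr {E : Divisor ℂ (MzF N)} (hE : 0 ≤ E) : (1 : MzF N) ∈ riemannRochSpace E := by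
  rw [mem_riemannRochSpace_iff]
  intro v
  right
  rw [Place.ord_one]
  have := hE v
  simp only [Finsupp.coe_zero, Pi.zero_apply] at this
  omega

theorem mzk_exists_ne_zero_of_ell_pos {E : Divisor ℂ (MzF N)} (h : 0 < ell E) :
    ∃ f ∈ riemannRochSpace E, f ≠ 0 := by
  have hne : riemannRochSpace E ≠ ⊥ := by
    intro h0
    rw [ell, h0, finrank_bot] at h
    exact lt_irrefl _ h
  obtain ⟨f, hf, hf0⟩ := (Submodule.ne_bot_iff _).mp hne
  exact ⟨f, hf, hf0⟩

theorem mzk_ell_pos_of_mem {E : Divisor ℂ (MzF N)} {f : MzF N} (hf : f ∈ riemannRochSpace E)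
    (hf0 : f ≠ 0) : 0 < ell E := by
  haveI := finiteDimensional_riemannRochSpace (mzkHx N) E
  rw [ell, Module.finrank_pos_iff_exists_ne_zero]
  exact ⟨⟨f, hf⟩, fun h => hf0 (congrArg Subtype.val h)⟩

/-- a divisor `D` with `ℓ(D) > 0` is linearly equivalent to an effective divisor -/
theorem mzk_exists_effective_of_ell_pos {E : Divisor ℂ (MzF N)} (h : 0 < ell E) :
    ∃ E' : Divisor ℂ (MzF N), 0 ≤ E' ∧ E' - E ∈ Divisor.principal (K := ℂ) (F := MzF N) := by
  obtain ⟨f, hf, hf0⟩ := mzk_exists_ne_zero_of_ell_pos h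
  refine ⟨E + divOf (mzkHx N) f, add_divOf_nonneg (mzkHx N) hf hf0, ?_⟩
  rw [add_sub_cancel_left]
  exact mzk_principal_iff.mpr ⟨f, hf0, rfl⟩

/-- a divisor of degree `≥ g` is linearly equivalent to an effective divisor -/
theorem mzk_exists_effective {E : Divisor ℂ (MzF N)} (h : (mzkg N : ℤ) ≤ Divisor.degree E) :
    ∃ E' : Divisor ℂ (MzF N), 0 ≤ E' ∧ E' - E ∈ Divisor.principal (K := ℂ) (F := MzF N) := by
  apply mzk_exists_effective_of_ell_pos
  have h1 := WeilAux.riemann_inequality (mzkHx N) E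
  have h2 : (mzkg N : ℤ) = (genusR ℂ (MzF N) : ℤ) := rfl
  omega

/-- an effective divisor with `ℓ = 1` is the only effective divisor in its class -/
theorem mzk_eq_of_ell_eq_one {E E' : Divisor ℂ (MzF N)} (hE : 0 ≤ E) (h1 : ell E = 1)
    (hE' : 0 ≤ E') (h : E' - E ∈ Divisor.principal (K := ℂ) (F := MzF N)) : E' = E := by
  obtain ⟨f, hf0, hf⟩ := mzk_principal_iff.mp h
  have hE'eq : E' = E + divOf (mzkHx N) f := by rw [← hf]; abel
  have hfmem : f ∈ riemannRochSpace E := by
    rw [mem_riemannRochSpace_iff]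
    intro v
    right
    have h2 := hE' v
    rw [hE'eq, Finsupp.add_apply, divOf_apply (mzkHx N) hf0] at h2
    simp only [Finsupp.coe_zero, Pi.zero_apply] at h2
    omega
  have hone : (⟨1, mzk_one_mem_rr hE⟩ : ↥(riemannRochSpace E)) ≠ 0 := by
    intro h0
    exact one_ne_zero (congrArg Subtype.val h0)
  obtain ⟨c, hc⟩ := (finrank_eq_one_iff_of_nonzero' _ hone).mp h1 ⟨f, hfmem⟩
  have hc' : f = algebraMap ℂ (MzF N) c := by
    have := congrArg Subtype.val hc
    simp only [Submodule.coe_smul] at this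
    rw [← this, Algebra.smul_def, mul_one]
  have hdiv : divOf (mzkHx N) f = 0 := by
    ext v
    rw [divOf_apply (mzkHx N) hf0, hc', ord_algebraMap]
    rfl
  rw [hE'eq, hdiv, add_zero]

/-! ### separation of points -/

/-- functions with poles only at `∞` separate the points -/
theorem mzk_exists_separating {R R' : Place ℂ (MzF N)} (hne : R ≠ R') (hR : R ≠ mzkO)
    (hR' : R' ≠ mzkO) :
    ∃ f ∈ riemannRochSpace (Finsupp.single (mzkO (N := N)) ((2 * mzkg N + 1 : ℕ) : ℤ)),
      OrdGE R f 1 ∧ f ∈ R'.toValuationSubring ∧ ¬ OrdGE R' f 1 := by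
  set n : ℕ := 2 * mzkg N + 1 with hn
  set E₀ : Divisor ℂ (MzF N) := Finsupp.single (mzkO (N := N)) (n : ℤ) with hE₀
  set E₁ : Divisor ℂ (MzF N) := E₀ - Finsupp.single R 1 with hE₁
  set E₂ : Divisor ℂ (MzF N) := E₁ - Finsupp.single R' 1 with hE₂
  have hd0 : Divisor.degree E₀ = n := mzk_degree_single _ _
  have hd1 : Divisor.degree E₁ = n - 1 := by
    rw [hE₁, map_sub, hd0, mzk_degree_single]
  have hd2 : Divisor.degree E₂ = n - 2 := by
    rw [hE₂, map_sub, hd1, mzk_degree_single]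
    ring
  have hl1 : (ell E₁ : ℤ) = n - 1 + 1 - mzkg N := by
    rw [mzk_ell_of_lt (by rw [hd1, hn]; push_cast; omega), hd1]
  have hl2 : (ell E₂ : ℤ) = n - 2 + 1 - mzkg N := by
    rw [mzk_ell_of_lt (by rw [hd2, hn]; push_cast; omega), hd2]
  have hlt : ell E₂ < ell E₁ := by omega
  have hex : ∃ f ∈ riemannRochSpace E₁, f ∉ riemannRochSpace E₂ := by
    by_contra hcon
    push Not at hcon
    haveI := finiteDimensional_riemannRochSpace (mzkHx N) E₂
    have hle : riemannRochSpace E₁ ≤ riemannRochSpace E₂ := hcon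
    have := Submodule.finrank_mono hle
    rw [ell, ell] at hlt
    omega
  obtain ⟨f, hf1, hf2⟩ := hex
  obtain ⟨hf0, hfR⟩ := mzk_mem_rr_sub_single.mp hf1
  refine ⟨f, hf0, ?_, ?_, ?_⟩
  · have h1 : E₀ R = 0 := by
      rw [hE₀, Finsupp.single_eq_of_ne hR]
    rwa [h1, neg_zero, zero_add] at hfR
  · have h1 : E₁ R' = 0 := by
      rw [hE₁, mzk_sub_single_of_ne _ (Ne.symm hne), hE₀, Finsupp.single_eq_of_ne hR']
    have h2 := (mem_riemannRochSpace_iff_ordGE.mp hf1) R'
    rw [h1, neg_zero] at h2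
    exact (ordGE_zero_iff_mem R').mp h2
  · intro h3
    apply hf2
    rw [hE₂, mzk_mem_rr_sub_single]
    refine ⟨hf1, ?_⟩
    have h1 : E₁ R' = 0 := by
      rw [hE₁, mzk_sub_single_of_ne _ (Ne.symm hne), hE₀, Finsupp.single_eq_of_ne hR']
    rwa [h1, neg_zero, zero_add]

end Fermat.Agent.Mazur
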