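/-
MAZUR (K), part 6: generic places. Functions defined over `mzkCl S` have neither zeros nor poles at
`S`-generic places (A3); `S`-algebraic places are fixed by `mzkH S` (A4); any two `S`-generic places
are conjugate under `mzkH S` (A5), and so are any two `S`-independent tuples of places.
-/
import Mathlib
import Fermat.Agent.Lib.Mazur.K.RRTools
import Fermat.Agent.Lib.Mazur.K.Extend

set_option autoImplicit false
set_option linter.unusedSectionVars false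
set_option linter.style.haveILetI false
set_option linter.unusedVariables false

namespace Fermat.Agent.Mazur

open AlgebraicCurve ModularCurve Fermat.Agent.T1 Fermat.Agent.Curve Fermat.Agent.Curve.PlaceAux
open Fermat.Agent.Curve.RRAux
open WithZero

variable {N : ℕ} [NeZero N]

/-! ### orbits -/

theorem mzkJ_mem_cl_of_finite_orbit {S : Set ℂ} {P : Place ℂ (MzF N)}
    (h : (Set.range fun σ : mzkH S => mzkG N (σ : ℂ ≃ₐ[ℚ] ℂ) • P).Finite) : mzkJ P ∈ mzkCl S := by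
  apply mzk_mem_cl_of_finite_orbit
  refine (h.image mzkJ).subset ?_
  rintro _ ⟨σ, rfl⟩
  exact ⟨_, ⟨σ, rfl⟩, mzkJ_smul (σ : ℂ ≃ₐ[ℚ] ℂ) P⟩

theorem mzk_finite_orbit_of_mem_cl {S : Set ℂ} {P : Place ℂ (MzF N)} (h : mzkJ P ∈ mzkCl S) :
    (Set.range fun σ : mzkH S => mzkG N (σ : ℂ ≃ₐ[ℚ] ℂ) • P).Finite := by
  refine (mzk_finite_fibre (mzkJ P)).subset ?_
  rintro _ ⟨σ, rfl⟩
  show mzkJ _ = mzkJ P
  rw [mzkJ_smul, σ.2 _ h]

theorem mzkVal_mem_cl_of_finite_orbit {S : Set ℂ} {f : MzF N} (hf : mzkDef S f)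
    {v : Place ℂ (MzF N)}
    (hv : (Set.range fun σ : mzkH S => mzkG N (σ : ℂ ≃ₐ[ℚ] ℂ) • v).Finite) :
    mzkVal v f ∈ mzkCl S := by
  apply mzk_mem_cl_of_finite_orbit
  refine (hv.image fun w => mzkVal w f).subset ?_
  rintro _ ⟨σ, rfl⟩
  refine ⟨_, ⟨σ, rfl⟩, ?_⟩
  have h := mzkVal_smul_smul (σ : ℂ ≃ₐ[ℚ] ℂ) v f
  rw [mzkDef_smul σ.2 hf] at h
  exact h

theorem mzkVal_mem_cl_of_mem_cl {S : Set ℂ} {f : MzF N} (hf : mzkDef S f)
    {v : Place ℂ (MzF N)} (hv : mzkJ v ∈ mzkCl S) : mzkVal v f ∈ mzkCl S :=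
  mzkVal_mem_cl_of_finite_orbit hf (mzk_finite_orbit_of_mem_cl hv)

/-! ### (A3) -/

/-- a nonzero function defined over `mzkCl S` has neither a zero nor a pole at an `S`-generic
place -/
theorem mzk_ord_eq_zero_of_generic {S : Set ℂ} {f : MzF N} (hf : mzkDef S f) (hf0 : f ≠ 0)
    {P : Place ℂ (MzF N)} (hP : mzkJ P ∉ mzkCl S) : P.ord f = 0 := by
  by_contra hne
  apply hP
  apply mzkJ_mem_cl_of_finite_orbit
  have hfin : {v : Place ℂ (MzF N) | v.ord f ≠ 0}.Finite := by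
    refine ((finite_zeros_of (mzkHx N) f).union (finite_poles_of (mzkHx N) f)).subset ?_
    intro v hv
    simp only [Set.mem_ofPred_eq, Set.mem_union] at hv ⊢
    omega
  refine hfin.subset ?_
  rintro _ ⟨σ, rfl⟩
  show (mzkG N (σ : ℂ ≃ₐ[ℚ] ℂ) • P).ord f ≠ 0
  have h := mzk_ord_smul (σ : ℂ ≃ₐ[ℚ] ℂ) P f
  rw [mzkDef_smul σ.2 hf] at h
  rw [h]
  exact hne

theorem mzk_mem_of_generic {S : Set ℂ} {f : MzF N} (hf : mzkDef S f)
    {P : Place ℂ (MzF N)} (hP : mzkJ P ∉ mzkCl S) : f ∈ P.toValuationSubring := by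
  by_cases hf0 : f = 0
  · rw [hf0]; exact zero_mem _
  · exact mem_of_ord_nonneg P (le_of_eq (mzk_ord_eq_zero_of_generic hf hf0 hP).symm)

theorem mzkVal_ne_zero_of_generic {S : Set ℂ} {f : MzF N} (hf : mzkDef S f) (hf0 : f ≠ 0)
    {P : Place ℂ (MzF N)} (hP : mzkJ P ∉ mzkCl S) : mzkVal P f ≠ 0 := by
  intro h
  rw [mzkVal_eq_zero_iff (mzk_mem_of_generic hf hP), ordGE_iff] at h
  rcases h with h | h
  · exact hf0 h
  · rw [mzk_ord_eq_zero_of_generic hf hf0 hP] at h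
    omega

/-! ### the field of functions defined over `mzkCl S` -/

/-- the subfield of the functions defined over `mzkCl S` -/
def mzkFS (N : ℕ) [NeZero N] (S : Set ℂ) : Subfield (MzF N) where
  carrier := {f | mzkDef S f}
  mul_mem' := by
    intro f g hf hg
    rw [Set.mem_ofPred_eq, mzkDef_iff_fixed] at hf hg ⊢
    intro σ hσ
    rw [smul_mul', hf σ hσ, hg σ hσ]
  one_mem' := by
    rw [Set.mem_ofPred_eq, mzkDef_iff_fixed]
    intro σ _
    rw [smul_one]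
  add_mem' := by
    intro f g hf hg
    rw [Set.mem_ofPred_eq, mzkDef_iff_fixed] at hf hg ⊢
    intro σ hσ
    rw [smul_add, hf σ hσ, hg σ hσ]
  zero_mem' := by
    rw [Set.mem_ofPred_eq, mzkDef_iff_fixed]
    intro σ _
    rw [smul_zero]
  neg_mem' := by
    intro f hf
    rw [Set.mem_ofPred_eq, mzkDef_iff_fixed] at hf ⊢
    intro σ hσ
    rw [smul_neg, hf σ hσ]
  inv_mem' := by
    intro f hf
    rw [Set.mem_ofPred_eq, mzkDef_iff_fixed] at hf ⊢
    intro σ hσ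
    rw [smul_inv'', hf σ hσ]

theorem mzk_mem_FS_iff {S : Set ℂ} {f : MzF N} : f ∈ mzkFS N S ↔ mzkDef S f := Iff.rfl

/-- evaluation at an `S`-generic place, as a ring homomorphism on the functions defined over
`mzkCl S` -/
noncomputable def mzkEv {S : Set ℂ} {P : Place ℂ (MzF N)} (hP : mzkJ P ∉ mzkCl S) :
    ↥(mzkFS N S) →+* ℂ where
  toFun f := mzkVal P (f : MzF N)
  map_one' := by
    have h := mzkVal_algebraMap P (1 : ℂ)
    rwa [map_one] at h
  map_mul' f g := mzkVal_mul (mzk_mem_of_generic f.2 hP) (mzk_mem_of_generic g.2 hP)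
  map_zero' := by
    have h := mzkVal_algebraMap P (0 : ℂ)
    rwa [map_zero] at h
  map_add' f g := mzkVal_add (mzk_mem_of_generic f.2 hP) (mzk_mem_of_generic g.2 hP)

theorem mzkEv_apply {S : Set ℂ} {P : Place ℂ (MzF N)} (hP : mzkJ P ∉ mzkCl S)
    (f : ↥(mzkFS N S)) : mzkEv hP f = mzkVal P (f : MzF N) := rfl

/-! ### separation of places by functions defined over `mzkCl S` -/

variable (N) in
/-- the functions with a pole of order at most `2g+1` at `∞` and no other pole -/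
noncomputable def mzkSep : Submodule ℂ (MzF N) :=
  riemannRochSpace (Finsupp.single (mzkO (N := N)) ((2 * mzkg N + 1 : ℕ) : ℤ))

instance : FiniteDimensional ℂ ↥(mzkSep N) := finiteDimensional_riemannRochSpace (mzkHx N) _

theorem mzkSep_stable (σ : ℂ ≃ₐ[ℚ] ℂ) {w : MzF N} (hw : w ∈ mzkSep N) :
    mzkG N σ • w ∈ mzkSep N := by
  have h := mzk_smul_mem_rr σ hw
  rwa [SemilinearAut.smul_single, mzk_smul_O] at h

theorem mzk_mem_of_mem_sep {R : Place ℂ (MzF N)} (hR : R ≠ mzkO) {w : MzF N}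
    (hw : w ∈ mzkSep N) : w ∈ R.toValuationSubring := by
  have h := (mem_riemannRochSpace_iff_ordGE.mp hw) R
  rw [Finsupp.single_eq_of_ne hR, neg_zero] at h
  exact (ordGE_zero_iff_mem R).mp h

/-- two places different from `∞` at which all the functions defined over `mzkCl S` with poles
only at `∞` take the same values are equal -/
theorem mzk_eq_of_val_eq (S : Set ℂ) {R R' : Place ℂ (MzF N)} (hR : R ≠ mzkO) (hR' : R' ≠ mzkO)
    (h : ∀ w ∈ mzkSep N, mzkDef S w → mzkVal R w = mzkVal R' w) : R = R' := by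
  by_contra hne
  let V : Submodule ℂ (MzF N) :=
    { carrier := {f | f ∈ mzkSep N ∧ mzkVal R f = mzkVal R' f}
      add_mem' := by
        rintro f g ⟨hf, hf'⟩ ⟨hg, hg'⟩
        refine ⟨add_mem hf hg, ?_⟩
        rw [mzkVal_add (mzk_mem_of_mem_sep hR hf) (mzk_mem_of_mem_sep hR hg),
          mzkVal_add (mzk_mem_of_mem_sep hR' hf) (mzk_mem_of_mem_sep hR' hg), hf', hg']
      zero_mem' := by
        refine ⟨zero_mem _, ?_⟩
        have h1 := mzkVal_algebraMap R (0 : ℂ)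
        have h2 := mzkVal_algebraMap R' (0 : ℂ)
        rw [map_zero] at h1 h2
        rw [h1, h2]
      smul_mem' := by
        rintro c f ⟨hf, hf'⟩
        refine ⟨Submodule.smul_mem _ c hf, ?_⟩
        rw [mzkVal_smul c (mzk_mem_of_mem_sep hR hf), mzkVal_smul c (mzk_mem_of_mem_sep hR' hf),
          hf'] }
  have hspan := mzk_span_def S (mzkSep N) (fun σ _ w hw => mzkSep_stable σ hw)
  have hle : mzkSep N ≤ V := by
    rw [← hspan, Submodule.span_le]
    rintro w ⟨hw, hwS⟩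
    exact ⟨hw, h w hw hwS⟩
  obtain ⟨f, hf, hf1, hf2, hf3⟩ := mzk_exists_separating hne hR hR'
  have hfV := (hle hf).2
  have h1 : mzkVal R f = 0 := (mzkVal_eq_zero_iff (mzk_mem_of_mem_sep hR hf)).mpr hf1
  have h2 : mzkVal R' f ≠ 0 := fun h0 => hf3 ((mzkVal_eq_zero_iff hf2).mp h0)
  rw [h1] at hfV
  exact h2 hfV.symm

theorem mzk_ne_O_of_generic {S : Set ℂ} {P : Place ℂ (MzF N)} (hP : mzkJ P ∉ mzkCl S) :
    P ≠ mzkO := by
  rintro rfl
  apply hP
  rw [mzkJ_O]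
  exact zero_mem _

/-! ### (A4) -/

/-- `S`-algebraic places are fixed by `mzkH S` -/
theorem mzk_smul_eq_of_mem_cl {S : Set ℂ} {R : Place ℂ (MzF N)} (hR : mzkJ R ∈ mzkCl S)
    {σ : ℂ ≃ₐ[ℚ] ℂ} (hσ : σ ∈ mzkH S) : mzkG N σ • R = R := by
  by_cases hO : R = mzkO
  · rw [hO, mzk_smul_O]
  have hO' : mzkG N σ • R ≠ mzkO := by
    intro h
    apply hO
    have h2 : (mzkG N σ)⁻¹ • (mzkG N σ • R) = (mzkG N σ)⁻¹ • mzkO := by rw [h]
    rwa [inv_smul_smul, ← mzkG_inv, mzk_smul_O] at h2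
  symm
  apply mzk_eq_of_val_eq S hO hO'
  intro w hw hwS
  have h1 := mzkVal_smul_smul σ R w
  rw [mzkDef_smul hσ hwS] at h1
  rw [h1, hσ _ (mzkVal_mem_cl_of_mem_cl hwS hR)]

/-! ### (A5): two generic places are conjugate -/

theorem mzk_fieldRange_le {S : Set ℂ} {P : Place ℂ (MzF N)} (hP : mzkJ P ∉ mzkCl S) :
    (mzkEv hP).fieldRange ≤ mzkCl (S ∪ {mzkJ P}) := by
  rintro _ ⟨f, rfl⟩
  rw [mzkEv_apply]
  apply mzkVal_mem_cl_of_mem_cl (mzkDef_mono Set.subset_union_left f.2)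
  exact mzk_subset_cl _ (Set.mem_union_right _ rfl)

theorem mzk_const_mem_FS {S : Set ℂ} {c : ℂ} (hc : c ∈ mzkCl S) :
    algebraMap ℂ (MzF N) c ∈ mzkFS N S := mzkDef_algebraMap hc

theorem mzkEv_const {S : Set ℂ} {P : Place ℂ (MzF N)} (hP : mzkJ P ∉ mzkCl S) {c : ℂ}
    (hc : c ∈ mzkCl S) : mzkEv hP ⟨algebraMap ℂ (MzF N) c, mzk_const_mem_FS hc⟩ = c :=
  mzkVal_algebraMap P c

theorem mzkEv_j {S : Set ℂ} {P : Place ℂ (MzF N)} (hP : mzkJ P ∉ mzkCl S) :
    mzkEv hP ⟨mzkj N, mzkDef_j S⟩ = mzkJ P := rfl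

theorem mzk_subset_fieldRange {S : Set ℂ} {P : Place ℂ (MzF N)} (hP : mzkJ P ∉ mzkCl S) :
    S ∪ {mzkJ P} ⊆ (mzkEv hP).fieldRange := by
  rintro c (hc | hc)
  · exact ⟨_, mzkEv_const hP (mzk_subset_cl S hc)⟩
  · rw [Set.mem_singleton_iff] at hc
    rw [hc]
    exact ⟨_, mzkEv_j hP⟩

/-- **(A5)** two `S`-generic places are conjugate under `mzkH S` -/
theorem mzk_exists_conj {S : Set ℂ} (hS : S.Countable) {P P' : Place ℂ (MzF N)}
    (hP : mzkJ P ∉ mzkCl S) (hP' : mzkJ P' ∉ mzkCl S) :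
    ∃ σ ∈ mzkH S, mzkG N σ • P = P' := by
  set e := (mzkEv hP).rangeRestrictFieldEquiv with he
  set e' := (mzkEv hP').rangeRestrictFieldEquiv with he'
  have hc₁ : (S ∪ {mzkJ P}).Countable := hS.union (Set.countable_singleton _)
  have hc₂ : (S ∪ {mzkJ P'}).Countable := hS.union (Set.countable_singleton _)
  obtain ⟨σ₀, hσ₀⟩ := mzk_exists_extend hc₁ hc₂ _ _ (mzk_fieldRange_le hP) (mzk_fieldRange_le hP')
    (mzk_subset_fieldRange hP) (mzk_subset_fieldRange hP') (e.symm.trans e')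
  have hval : ∀ f : ↥(mzkFS N S), σ₀ (mzkVal P (f : MzF N)) = mzkVal P' (f : MzF N) := by
    intro f
    have h1 := hσ₀ (e f)
    rw [RingEquiv.trans_apply, RingEquiv.symm_apply_apply] at h1
    exact h1
  set σ : ℂ ≃ₐ[ℚ] ℂ := σ₀.toRatAlgEquiv with hσdef
  have hσapp : ∀ x : ℂ, σ x = σ₀ x := fun x => rfl
  have hσH : σ ∈ mzkH S := by
    intro c hc
    have h1 := hval ⟨algebraMap ℂ (MzF N) c, mzk_const_mem_FS hc⟩
    rw [mzkVal_algebraMap, mzkVal_algebraMap] at h1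
    rw [hσapp]
    exact h1
  refine ⟨σ, hσH, ?_⟩
  have hgen : mzkJ (mzkG N σ • P) ∉ mzkCl S := by
    rw [mzkJ_smul]
    intro h
    have h1 : σ⁻¹ (σ (mzkJ P)) = σ (mzkJ P) := ((mzkH S).inv_mem hσH) _ h
    have h2 : σ⁻¹ (σ (mzkJ P)) = mzkJ P := by
      rw [← AlgEquiv.mul_apply, inv_mul_cancel, AlgEquiv.one_apply]
    rw [h2] at h1
    rw [← h1] at h
    exact hP h
  apply mzk_eq_of_val_eq S (mzk_ne_O_of_generic hgen) (mzk_ne_O_of_generic hP')
  intro w hw hwS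
  have h1 := mzkVal_smul_smul σ P w
  rw [mzkDef_smul hσH hwS] at h1
  rw [h1, hσapp]
  exact hval ⟨w, hwS⟩

/-- **(A5) for tuples**: two `S`-independent tuples of places are conjugate under `mzkH S` -/
theorem mzk_exists_conj_tuple {S : Set ℂ} (hS : S.Countable) (n : ℕ) :
    ∀ (P P' : ℕ → Place ℂ (MzF N)), mzkIndep S (fun i => mzkJ (P i)) n →
      mzkIndep S (fun i => mzkJ (P' i)) n →
      ∃ σ ∈ mzkH S, ∀ i < n, mzkG N σ • P i = P' i := by
  induction n with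
  | zero =>
    intro P P' _ _
    exact ⟨1, (mzkH S).one_mem, fun i hi => absurd hi (Nat.not_lt_zero i)⟩
  | succ n ih =>
    intro P P' hP hP'
    rw [mzkIndep_succ_iff] at hP hP'
    obtain ⟨σ₀, hσ₀, hσP⟩ := ih P P' hP.1 hP'.1
    set X : Set ℂ := (fun i => mzkJ (P i)) '' Set.Iio n with hX
    set X' : Set ℂ := (fun i => mzkJ (P' i)) '' Set.Iio n with hX'
    have hXX' : σ₀ '' X = X' := by
      rw [hX, hX', Set.image_image]
      apply Set.image_congr
      intro i hi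
      show σ₀ (mzkJ (P i)) = mzkJ (P' i)
      rw [← mzkJ_smul, hσP i hi]
    have hcount : (S ∪ X').Countable :=
      hS.union ((Set.to_countable (Set.Iio n)).image _)
    have hQ : mzkJ (mzkG N σ₀ • P n) ∉ mzkCl (S ∪ X') := by
      rw [mzkJ_smul, ← hXX', mzk_map_mem_cl_union_iff hσ₀]
      exact hP.2
    obtain ⟨τ, hτ, hτQ⟩ := mzk_exists_conj hcount hQ hP'.2
    refine ⟨τ * σ₀, (mzkH S).mul_mem (mzkH_anti Set.subset_union_left hτ) hσ₀, ?_⟩
    intro i hi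
    rw [mzkG_mul, mul_smul]
    rcases Nat.lt_succ_iff_lt_or_eq.mp hi with h | h
    · rw [hσP i h]
      apply mzk_smul_eq_of_mem_cl _ hτ
      apply mzk_subset_cl
      exact Set.mem_union_right _ ⟨i, h, rfl⟩
    · rw [h]
      exact hτQ

end Fermat.Agent.Mazur
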