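/-
MAZUR (K), part 7: (A7) an independent tuple of `g` generic places is non-special:
`ℓ(W - P₀ - ⋯ - P_{i-1}) = g - i` and `ℓ(P₀ + ⋯ + P_{g-1}) = 1`.
-/
import Mathlib
import Fermat.Agent.Lib.Mazur.K.Generic

set_option autoImplicit false
set_option linter.unusedSectionVars false
set_option linter.style.haveILetI false
set_option linter.unusedVariables false

namespace Fermat.Agent.Mazur

open AlgebraicCurve ModularCurve Fermat.Agent.T1 Fermat.Agent.Curve Fermat.Agent.Curve.PlaceAux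
open Fermat.Agent.Curve.RRAux
open WithZero

variable {N : ℕ} [NeZero N]

/-- every complex number is the `j`-value of a place -/
theorem mzk_exists_place_J (a : ℂ) : ∃ P : Place ℂ (MzF N), mzkJ P = a := by
  have h := sum_ord_zeros (mzkHx N) a
  have hpos : 0 < Module.finrank (IntermediateField.adjoin ℂ {mzkj N}) (MzF N) := by
    haveI := (mzkHx N).finite
    exact Module.finrank_pos
  have hne : {v : Place ℂ (MzF N) | 0 < v.ord (mzkj N - algebraMap ℂ (MzF N) a)}.Nonempty := by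
    by_contra hcon
    rw [Set.not_nonempty_iff_eq_empty] at hcon
    rw [hcon, finsum_mem_empty] at h
    omega
  obtain ⟨v, hv⟩ := hne
  refine ⟨v, mzkVal_eq ?_⟩
  rw [ordGE_iff]
  right
  have : 0 < v.ord (mzkj N - algebraMap ℂ (MzF N) a) := hv
  omega

/-- the canonical divisor `div(dj)` is supported on places algebraic over `ℚ` -/
theorem mzkW_apply_of_generic {S : Set ℂ} {P : Place ℂ (MzF N)} (hP : mzkJ P ∉ mzkCl S) :
    mzkW N P = 0 := by
  by_contra hne
  apply hP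
  apply mzkJ_mem_cl_of_finite_orbit
  have hfin : {v : Place ℂ (MzF N) | mzkW N v ≠ 0}.Finite := by
    refine (mzkW N).support.finite_toSet.subset ?_
    intro v hv
    exact Finset.mem_coe.mpr (Finsupp.mem_support_iff.mpr hv)
  refine hfin.subset ?_
  rintro _ ⟨σ, rfl⟩
  show mzkW N (mzkG N (σ : ℂ ≃ₐ[ℚ] ℂ) • P) ≠ 0
  rw [mzkW_apply_smul]
  exact hne

/-- `S ∪ {j(P₀), …, j(P_{n-1})}` -/
def mzkSJ (S : Set ℂ) (P : ℕ → Place ℂ (MzF N)) (n : ℕ) : Set ℂ :=
  S ∪ (fun i => mzkJ (P i)) '' Set.Iio n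

theorem mzk_smul_eq_of_lt {S : Set ℂ} {P : ℕ → Place ℂ (MzF N)} {n : ℕ} {σ : ℂ ≃ₐ[ℚ] ℂ}
    (hσ : σ ∈ mzkH (mzkSJ S P n)) {i : ℕ} (hi : i < n) : mzkG N σ • P i = P i := by
  apply mzk_smul_eq_of_mem_cl _ hσ
  apply mzk_subset_cl
  exact Set.mem_union_right _ ⟨i, hi, rfl⟩

theorem mzk_smul_sum_eq {S : Set ℂ} {P : ℕ → Place ℂ (MzF N)} {n : ℕ} {σ : ℂ ≃ₐ[ℚ] ℂ}
    (hσ : σ ∈ mzkH (mzkSJ S P n)) : mzkG N σ • mzkSum P n = mzkSum P n := by
  rw [mzk_smul_sum]
  exact mzkSum_congr fun i hi => mzk_smul_eq_of_lt hσ hi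

/-- **(A7)** -/
theorem mzk_ell_W_sub_sum {P : ℕ → Place ℂ (MzF N)} (n : ℕ) :
    mzkIndep ∅ (fun i => mzkJ (P i)) n → n ≤ mzkg N →
      ell (mzkW N - mzkSum P n) + n = mzkg N := by
  induction n with
  | zero =>
    intro _ _
    rw [mzkSum_zero, sub_zero, mzk_ell_W, add_zero]
  | succ n ih =>
    intro hP hn
    rw [mzkIndep_succ_iff] at hP
    have h1 := ih hP.1 (by omega)
    set E : Divisor ℂ (MzF N) := mzkW N - mzkSum P n with hE
    have hgen : mzkJ (P n) ∉ mzkCl (mzkSJ ∅ P n) := hP.2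
    have hstab : ∀ σ ∈ mzkH (mzkSJ ∅ P n), ∀ w ∈ riemannRochSpace E,
        mzkG N σ • w ∈ riemannRochSpace E := by
      intro σ hσ w hw
      have h2 := mzk_smul_mem_rr σ hw
      rwa [hE, smul_sub, mzkW_smul, mzk_smul_sum_eq hσ] at h2
    have hbot : riemannRochSpace E ≠ ⊥ := by
      intro h0
      rw [ell, h0, finrank_bot] at h1
      omega
    haveI := finiteDimensional_riemannRochSpace (mzkHx N) E
    obtain ⟨f, hf, hf0, hfS⟩ := mzk_exists_def_ne_zero (mzkSJ ∅ P n) (riemannRochSpace E) hbot hstab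
    have hEP : E (P n) = 0 := by
      rw [hE, Finsupp.sub_apply, mzkW_apply_of_generic hgen, zero_sub, neg_eq_zero]
      by_contra hne
      obtain ⟨i, hi, hPi⟩ := mzkSum_apply_ne_zero hne
      apply hgen
      apply mzk_subset_cl
      refine Set.mem_union_right _ ⟨i, hi, ?_⟩
      show mzkJ (P i) = mzkJ (P n)
      rw [hPi]
    have hnot : f ∉ riemannRochSpace (E - Finsupp.single (P n) 1) := by
      intro hmem
      have h2 := (mzk_mem_rr_sub_single.mp hmem).2
      rw [hEP, neg_zero, zero_add, ordGE_iff] at h2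
      rcases h2 with h2 | h2
      · exact hf0 h2
      · rw [mzk_ord_eq_zero_of_generic hfS hf0 hgen] at h2
        omega
    have h3 := mzk_ell_sub_single_of_notMem hf hnot
    have h4 : E - Finsupp.single (P n) 1 = mzkW N - mzkSum P (n + 1) := by
      rw [hE, mzkSum_succ]
      abel
    rw [h4] at h3
    omega

/-- an independent tuple of `g` generic places is non-special -/
theorem mzk_ell_sum_eq_one {P : ℕ → Place ℂ (MzF N)}
    (hP : mzkIndep ∅ (fun i => mzkJ (P i)) (mzkg N)) : ell (mzkSum P (mzkg N)) = 1 := by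
  have h1 := mzk_ell_W_sub_sum (mzkg N) hP le_rfl
  have h2 := mzk_rr N (mzkSum P (mzkg N))
  rw [mzk_degree_sum] at h2
  have h3 : ell (mzkW N - mzkSum P (mzkg N)) = 0 := by omega
  rw [h3] at h2
  have : (ell (mzkSum P (mzkg N)) : ℤ) = 1 := by
    rw [h2]
    push_cast
    ring
  exact_mod_cast this

end Fermat.Agent.Mazur
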