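/-
MAZUR (K), part 8: Weil's generic point argument. Every class of `Pic⁰` of `ℂ(X₀(N))` which is
fixed by `Aut(ℂ/ℚ̄)` is divisible by `m` (given the finiteness of the `m`-torsion).
-/
import Mathlib
import Fermat.Agent.Lib.Mazur.K.NonSpecial

set_option autoImplicit false
set_option linter.unusedSectionVars false
set_option linter.style.haveILetI false
set_option linter.unusedVariables false

namespace Fermat.Agent.Mazur

open AlgebraicCurve ModularCurve Fermat.Agent.T1 Fermat.Agent.Curve Fermat.Agent.Curve.PlaceAux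
open Fermat.Agent.Curve.RRAux
open WithZero

variable {N : ℕ} [NeZero N]

/-! ### classes of divisors of degree zero -/

/-- the class of a divisor of degree zero -/
noncomputable def mzkCls (E : Divisor ℂ (MzF N)) (h : Divisor.degree E = 0) : Pic0 ℂ (MzF N) :=
  Pic0.mk ⟨E, h⟩

theorem mzk_exists_cls (u : Pic0 ℂ (MzF N)) : ∃ E h, u = mzkCls E h := by
  obtain ⟨⟨E, hE⟩, rfl⟩ := Pic0.mk_surjective u
  exact ⟨E, hE, rfl⟩

theorem mzkCls_eq_iff {E E' : Divisor ℂ (MzF N)} {h : Divisor.degree E = 0}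
    {h' : Divisor.degree E' = 0} :
    mzkCls E h = mzkCls E' h' ↔ E' - E ∈ Divisor.principal (K := ℂ) (F := MzF N) := by
  rw [mzkCls, mzkCls, Pic0.mk, Pic0.mk, QuotientAddGroup.eq, AddSubgroup.mem_addSubgroupOf]
  have : ((-(⟨E, h⟩ : Divisor.degZero (K := ℂ) (F := MzF N)) + ⟨E', h'⟩ :
      Divisor.degZero (K := ℂ) (F := MzF N)) : Divisor ℂ (MzF N)) = E' - E := by
    show -E + E' = E' - E
    abel
  rw [this]

theorem mzkCls_smul (σ : ℂ ≃ₐ[ℚ] ℂ) (E : Divisor ℂ (MzF N)) (h : Divisor.degree E = 0) :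
    mzkG N σ • mzkCls E h = mzkCls (mzkG N σ • E) (by rw [SemilinearAut.degree_smul, h]) := rfl

/-! ### classes `[P₀ + ⋯ + P_{g-1} - g ∞]` -/

theorem mzk_degree_pt (P : ℕ → Place ℂ (MzF N)) :
    Divisor.degree (mzkSum P (mzkg N) - Finsupp.single (mzkO (N := N)) (mzkg N : ℤ)) = 0 := by
  rw [map_sub, mzk_degree_sum, mzk_degree_single, sub_self]

/-- the class of `P₀ + ⋯ + P_{g-1} - g ∞` -/
noncomputable def mzkPt (P : ℕ → Place ℂ (MzF N)) : Pic0 ℂ (MzF N) :=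
  mzkCls _ (mzk_degree_pt P)

theorem mzkPt_congr {P Q : ℕ → Place ℂ (MzF N)} (h : ∀ i < mzkg N, P i = Q i) :
    mzkPt P = mzkPt Q := by
  have h1 : mzkSum P (mzkg N) = mzkSum Q (mzkg N) := mzkSum_congr h
  rw [mzkPt, mzkPt, mzkCls_eq_iff, h1, sub_self]
  exact zero_mem _

theorem mzkPt_smul (σ : ℂ ≃ₐ[ℚ] ℂ) (P : ℕ → Place ℂ (MzF N)) :
    mzkG N σ • mzkPt P = mzkPt (fun i => mzkG N σ • P i) := by
  rw [mzkPt, mzkCls_smul, mzkPt, mzkCls_eq_iff, smul_sub, mzk_smul_sum,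
    SemilinearAut.smul_single, mzk_smul_O, sub_self]
  exact zero_mem _

/-- every class is of the form `[P₀ + ⋯ + P_{g-1} - g ∞]` -/
theorem mzk_exists_pt (u : Pic0 ℂ (MzF N)) : ∃ Q : ℕ → Place ℂ (MzF N), u = mzkPt Q := by
  obtain ⟨E, hE, rfl⟩ := mzk_exists_cls u
  set E₁ : Divisor ℂ (MzF N) := E + Finsupp.single (mzkO (N := N)) (mzkg N : ℤ) with hE₁
  have hdeg : Divisor.degree E₁ = mzkg N := by
    rw [hE₁, map_add, hE, mzk_degree_single, zero_add]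
  obtain ⟨E', hE'0, hE'⟩ := mzk_exists_effective (E := E₁) (le_of_eq hdeg.symm)
  have hdeg' : Divisor.degree E' = mzkg N := by
    obtain ⟨f, hf0, hf⟩ := mzk_principal_iff.mp hE'
    have : E' = E₁ + divOf (mzkHx N) f := by rw [← hf]; abel
    rw [this, degree_add_divOf, hdeg]
  obtain ⟨Q, hQ⟩ := mzk_exists_sum (mzkg N) E' hE'0 hdeg'
  refine ⟨Q, ?_⟩
  rw [mzkPt, mzkCls_eq_iff, ← hQ]
  have : E' - Finsupp.single (mzkO (N := N)) (mzkg N : ℤ) - E = E' - E₁ := by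
    rw [hE₁]; abel
  rw [this]
  exact hE'

/-- uniqueness of the representative for non-special tuples -/
theorem mzkSum_eq_of_pt_eq {P Q : ℕ → Place ℂ (MzF N)} (h1 : ell (mzkSum P (mzkg N)) = 1)
    (h : mzkPt Q = mzkPt P) : mzkSum Q (mzkg N) = mzkSum P (mzkg N) := by
  apply mzk_eq_of_ell_eq_one (mzkSum_nonneg P _) h1 (mzkSum_nonneg Q _)
  rw [mzkPt, mzkPt, mzkCls_eq_iff] at h
  have h2 : mzkSum Q (mzkg N) - mzkSum P (mzkg N) =
      -(mzkSum P (mzkg N) - Finsupp.single (mzkO (N := N)) (mzkg N : ℤ) -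
        (mzkSum Q (mzkg N) - Finsupp.single (mzkO (N := N)) (mzkg N : ℤ))) := by abel
  rw [h2]
  exact neg_mem h

/-! ### (A8): finite orbits force independence -/

theorem mzk_finite_range_of_factors {α β γ : Type*} (f : α → β) (g : α → γ)
    (h : ∀ a b, f a = f b → g a = g b) (hf : (Set.range f).Finite) : (Set.range g).Finite := by
  classical
  by_cases hα : Nonempty α
  · refine (hf.image fun b => g (Function.invFun f b)).subset ?_
    rintro _ ⟨a, rfl⟩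
    refine ⟨f a, ⟨a, rfl⟩, ?_⟩
    exact h _ _ (Function.invFun_eq ⟨a, rfl⟩)
  · rw [not_nonempty_iff] at hα
    rw [Set.range_eq_empty]
    exact Set.finite_empty

theorem mzk_indep_of_finite_orbit {P Q : ℕ → Place ℂ (MzF N)}
    (hP : mzkIndep ∅ (fun i => mzkJ (P i)) (mzkg N))
    (hfin : (Set.range fun σ : mzkH (mzkSJ ∅ Q (mzkg N)) =>
      mzkG N (σ : ℂ ≃ₐ[ℚ] ℂ) • mzkPt P).Finite) :
    mzkIndep ∅ (fun i => mzkJ (Q i)) (mzkg N) := by
  apply mzkIndep_of_mem_cl ∅ (mzkg N) (fun i => mzkJ (P i)) (fun i => mzkJ (Q i)) hP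
  intro i hi
  show mzkJ (P i) ∈ mzkCl (mzkSJ ∅ Q (mzkg N))
  apply mzkJ_mem_cl_of_finite_orbit
  have h1 := mzk_ell_sum_eq_one hP
  have hE : (Set.range fun σ : mzkH (mzkSJ ∅ Q (mzkg N)) =>
      mzkG N (σ : ℂ ≃ₐ[ℚ] ℂ) • mzkSum P (mzkg N)).Finite := by
    refine mzk_finite_range_of_factors _ _ ?_ hfin
    intro σ τ hστ
    simp only [mzkPt_smul] at hστ
    rw [mzk_smul_sum, mzk_smul_sum]
    refine mzkSum_eq_of_pt_eq ?_ hστ
    rw [← mzk_smul_sum, mzk_ell_smul, h1]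
  refine (hE.biUnion (t := fun E : Divisor ℂ (MzF N) => (E.support : Set (Place ℂ (MzF N))))
    fun E _ => E.support.finite_toSet).subset ?_
  rintro _ ⟨σ, rfl⟩
  rw [Set.mem_iUnion₂]
  refine ⟨_, ⟨σ, rfl⟩, ?_⟩
  rw [Finset.mem_coe, Finsupp.mem_support_iff, SemilinearAut.divisor_smul_apply_smul]
  exact (mzkSum_apply_pos hi).ne'

/-! ### (A9): Weil's argument -/

theorem mzk_smul_nsmul (σ : ℂ ≃ₐ[ℚ] ℂ) (m : ℕ) (u : Pic0 ℂ (MzF N)) :
    mzkG N σ • (m • u) = m • (mzkG N σ • u) :=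
  map_nsmul (DistribSMul.toAddMonoidHom (Pic0 ℂ (MzF N)) (mzkG N σ)) m u

/-- **Theorem A**: a class fixed by `Aut(ℂ/ℚ̄)` is divisible by `m` -/
theorem mzk_divisible_fixed {m : ℕ} (hT : (Pic0.torsion ℂ (MzF N) m : Set (Pic0 ℂ (MzF N))).Finite)
    (y₀ : Pic0 ℂ (MzF N)) (hy₀ : ∀ σ ∈ mzkH ∅, mzkG N σ • y₀ = y₀) :
    ∃ z : Pic0 ℂ (MzF N), m • z = y₀ := by
  obtain ⟨x, hx⟩ := mzk_exists_indep
  choose P hP using fun i => mzk_exists_place_J (N := N) (x i)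
  have hPi : mzkIndep ∅ (fun i => mzkJ (P i)) (mzkg N) :=
    mzkIndep_congr (fun i _ => (hP i).symm) (hx (mzkg N))
  set y := mzkPt P with hy
  have hcount : (∅ : Set ℂ).Countable := Set.countable_empty
  -- a class `[Q₀ + ⋯ - g∞]` is fixed by `mzkH {j(Q_i)}`
  have hfixQ : ∀ (Q : ℕ → Place ℂ (MzF N)) (σ : ℂ ≃ₐ[ℚ] ℂ), σ ∈ mzkH (mzkSJ ∅ Q (mzkg N)) →
      mzkG N σ • mzkPt Q = mzkPt Q := by
    intro Q σ hσ
    rw [mzkPt_smul]
    exact mzkPt_congr fun i hi => mzk_smul_eq_of_lt hσ hi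
  -- step 1 : `y = m • σ y`
  obtain ⟨Q, hQ⟩ := mzk_exists_pt (m • y)
  have hQi : mzkIndep ∅ (fun i => mzkJ (Q i)) (mzkg N) := by
    apply mzk_indep_of_finite_orbit hPi
    rw [← hy]
    refine (hT.image fun t => y + t).subset ?_
    rintro _ ⟨σ, rfl⟩
    refine ⟨mzkG N (σ : ℂ ≃ₐ[ℚ] ℂ) • y - y, ?_, add_sub_cancel _ _⟩
    rw [SetLike.mem_coe, Pic0.mem_torsion, natCast_zsmul, nsmul_sub, ← mzk_smul_nsmul, hQ,
      hfixQ Q _ σ.2, sub_self]
  obtain ⟨σ, hσ, hσQ⟩ := mzk_exists_conj_tuple hcount (mzkg N) Q P hQi hPi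
  have h1 : m • (mzkG N σ • y) = y := by
    rw [← mzk_smul_nsmul, hQ, mzkPt_smul, hy]
    exact mzkPt_congr hσQ
  -- step 2 : `τ y = y + y₀`
  obtain ⟨Q', hQ'⟩ := mzk_exists_pt (y + y₀)
  have hQ'i : mzkIndep ∅ (fun i => mzkJ (Q' i)) (mzkg N) := by
    apply mzk_indep_of_finite_orbit hPi
    rw [← hy]
    refine (Set.finite_singleton y).subset ?_
    rintro _ ⟨τ, rfl⟩
    rw [Set.mem_singleton_iff]
    have h2 := hfixQ Q' _ τ.2
    rw [← hQ', smul_add, hy₀ _ (mzkH_anti (Set.empty_subset _) τ.2)] at h2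
    exact add_right_cancel h2
  obtain ⟨τ, hτ, hτP⟩ := mzk_exists_conj_tuple hcount (mzkg N) P Q' hPi hQ'i
  have h2 : mzkG N τ • y = y + y₀ := by
    rw [hQ', hy, mzkPt_smul]
    exact mzkPt_congr hτP
  refine ⟨mzkG N τ • (mzkG N σ • y) - mzkG N σ • y, ?_⟩
  rw [nsmul_sub, ← mzk_smul_nsmul, h1, h2, add_sub_cancel_left]

end Fermat.Agent.Mazur
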