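/-
MAZUR (K), part 9: (T) the `m`-torsion of `Pic⁰` of `ℂ(X₀(N))` is finite (it injects into the
Kummer group `W_m / (F^×)^m`, which is finite by the monodromy isomorphism of T1).
-/
import Mathlib
import Fermat.Agent.Lib.Mazur.K.Weil
import Fermat.Agent.Lib.T1.Dict.DescentSurj

set_option autoImplicit false
set_option linter.unusedSectionVars false
set_option linter.style.haveILetI false
set_option linter.unusedVariables false

namespace Fermat.Agent.Mazur

open AlgebraicCurve ModularCurve Fermat.Agent.T1 Fermat.Agent.Curve Fermat.Agent.Curve.PlaceAux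
open Fermat.Agent.Curve.RRAux
open WithZero

variable {N : ℕ} [NeZero N]

theorem mzk_divOf_mul {f g : MzF N} (hf : f ≠ 0) (hg : g ≠ 0) :
    divOf (mzkHx N) (f * g) = divOf (mzkHx N) f + divOf (mzkHx N) g := by
  ext v
  rw [Finsupp.add_apply, divOf_apply _ (mul_ne_zero hf hg), divOf_apply _ hf, divOf_apply _ hg,
    v.ord_mul hf hg]

theorem mzk_divOf_pow {f : MzF N} (hf : f ≠ 0) (m : ℕ) :
    divOf (mzkHx N) (f ^ m) = m • divOf (mzkHx N) f := by
  induction m with
  | zero =>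
    rw [pow_zero, zero_smul]
    ext v
    rw [divOf_apply _ one_ne_zero, Place.ord_one]
    rfl
  | succ m ih =>
    rw [pow_succ, mzk_divOf_mul (pow_ne_zero m hf) hf, ih, succ_nsmul]

theorem mzk_nsmul_cls (m : ℕ) (E : Divisor ℂ (MzF N)) (h : Divisor.degree E = 0)
    (h' : Divisor.degree (m • E) = 0) : m • mzkCls E h = mzkCls (m • E) h' := by
  rw [mzkCls, mzkCls, Pic0.mk, Pic0.mk, ← QuotientAddGroup.mk_nsmul]
  exact congrArg _ (Subtype.ext rfl)

/-- every `m`-torsion class has a Kummer function -/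
theorem mzk_exists_kummer {m : ℕ} (hm : m ≠ 0) {z : Pic0 ℂ (MzF N)}
    (hz : z ∈ Pic0.torsion ℂ (MzF N) m) :
    ∃ (y : tWsub ℂ N m) (E : Divisor ℂ (MzF N)) (hE : Divisor.degree E = 0), z = mzkCls E hE ∧
      m • E = divOf (mzkHx N) (((y : (MzF N)ˣ) : MzF N)) := by
  obtain ⟨E, hE, rfl⟩ := mzk_exists_cls z
  rw [Pic0.mem_torsion, natCast_zsmul] at hz
  have h0 : Divisor.degree (m • E) = 0 := by rw [map_nsmul, hE, smul_zero]
  have h1 : mzkCls (m • E) h0 = mzkCls 0 (map_zero _) := by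
    have h2 : mzkCls (m • E) h0 = m • mzkCls E hE := (mzk_nsmul_cls m E hE h0).symm
    rw [h2, hz]
    rfl
  rw [mzkCls_eq_iff, zero_sub] at h1
  have h2 : m • E ∈ Divisor.principal (K := ℂ) (F := MzF N) := by
    have := neg_mem h1
    rwa [neg_neg] at this
  obtain ⟨f, hf0, hf⟩ := mzk_principal_iff.mp h2
  have hmem : Units.mk0 f hf0 ∈ tWsub ℂ N m := by
    rw [mem_tWsub]
    intro P
    have h3 : (m • E) P = P.ord f := by rw [hf, divOf_apply _ hf0]
    rw [Units.val_mk0, ← h3, Finsupp.smul_apply, nsmul_eq_mul]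
    exact dvd_mul_right _ _
  exact ⟨⟨Units.mk0 f hf0, hmem⟩, E, hE, rfl, hf⟩

/-- **(T)** the `m`-torsion of `Pic⁰` is finite -/
theorem mzk_finite_torsion {m : ℕ} (hm : m ≠ 0) : Finite (Pic0.torsion ℂ (MzF N) m) := by
  haveI : NeZero m := ⟨hm⟩
  haveI : Finite (tWsub ℂ N m ⧸ tdmPowSub ℂ N m) :=
    (tddDictC N (tddDict ℂ N) (tddDict_toMer ℂ N)).finite_quotient
  choose y E hE hz hy using fun z : Pic0.torsion ℂ (MzF N) m => mzk_exists_kummer hm z.2
  apply Finite.of_injective (fun z => (QuotientGroup.mk (y z) : tWsub ℂ N m ⧸ tdmPowSub ℂ N m))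
  intro z z' hzz'
  have h1 := QuotientGroup.eq.mp hzz'
  obtain ⟨t, ht⟩ := mem_tdmPowSub.mp h1
  apply Subtype.ext
  rw [hz z, hz z', mzkCls_eq_iff]
  have ht' : ((y z' : (MzF N)ˣ) : MzF N) = ((y z : (MzF N)ˣ) : MzF N) * (t : MzF N) ^ m := by
    have h2 : (y z' : (MzF N)ˣ) = (y z : (MzF N)ˣ) * t ^ m := by
      rw [ht]
      show (y z' : (MzF N)ˣ) = (y z : (MzF N)ˣ) * ((y z : (MzF N)ˣ)⁻¹ * (y z' : (MzF N)ˣ))
      rw [mul_inv_cancel_left]
    have h3 := congrArg (fun u : (MzF N)ˣ => (u : MzF N)) h2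
    simpa using h3
  have h4 : m • (E z' - E z) = m • divOf (mzkHx N) (t : MzF N) := by
    rw [smul_sub, hy z, hy z', ht', mzk_divOf_mul (Units.ne_zero _) (pow_ne_zero m (Units.ne_zero t)),
      mzk_divOf_pow (Units.ne_zero t), add_sub_cancel_left]
  have h5 : E z' - E z = divOf (mzkHx N) (t : MzF N) := by
    ext v
    have h6 := congrArg (fun D : Divisor ℂ (MzF N) => D v) h4
    simp only [Finsupp.smul_apply, nsmul_eq_mul] at h6
    have hm' : (m : ℤ) ≠ 0 := by exact_mod_cast hm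
    exact mul_left_cancel₀ hm' h6
  rw [h5]
  exact mzk_principal_iff.mpr ⟨_, Units.ne_zero t, rfl⟩

end Fermat.Agent.Mazur
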