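/-
MAZUR (K), part 10: base change of places from `ℚ̄(X₀(N))` to `ℂ(X₀(N))`.
Every place `p` of `ℚ̄(X₀(N))` has a unique extension `mzkExt p` to `ℂ(X₀(N))`, with
`ord_{ext p} (β y) = ord_p y`; the extensions are exactly the places algebraic over `ℚ`.
-/
import Mathlib
import Fermat.Agent.Lib.Mazur.K.Torsion
import Fermat.Agent.Lib.T1.Dict.StabCount
import Fermat.Agent.Lib.T1.Dict.BaseChange

set_option autoImplicit false
set_option linter.unusedSectionVars false
set_option linter.style.haveILetI false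
set_option linter.unusedVariables false

namespace Fermat.Agent.Mazur

open AlgebraicCurve ModularCurve Fermat.Agent.T1 Fermat.Agent.Curve Fermat.Agent.Curve.PlaceAux
open Fermat.Agent.Curve.RRAux
open Fermat.Agent.S24Lib
open UpperHalfPlane Matrix MatrixGroups CongruenceSubgroup
open WithZero

local notation "Kbar" => AlgebraicClosure ℚ

variable (N : ℕ) [NeZero N]

/-- the function field of `X₀(N)` over `ℚ̄` -/
abbrev MzFK : Type := ↥(KMod.barField Kbar N)

/-- base change of functions -/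
noncomputable abbrev mzkB : MzFK N →+* MzF N := KMod.bcHom Kbar N

variable {N}

theorem mzk_modAct_incl (γ : SL(2, ℤ)) (r : KMod.modRing Kbar N) :
    KMod.modAct ℂ N γ (KMod.modRingIncl Kbar N r) = KMod.modRingIncl Kbar N (KMod.modAct Kbar N γ r) := by
  apply Subtype.ext
  funext τ
  rw [KMod.modAct_apply_apply ℂ, KMod.coe_modRingIncl, KMod.coe_modRingIncl,
    KMod.modAct_apply_apply Kbar]

theorem mzk_modRep_incl (γ : SL(2, ℤ)) (x : KMod.ModField Kbar N) :
    KMod.modRep ℂ N γ (KMod.modFieldIncl Kbar N x)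
      = KMod.modFieldIncl Kbar N (KMod.modRep Kbar N γ x) := by
  have h : ((KMod.modRep ℂ N γ : KMod.ModField ℂ N ≃ₐ[ℂ] KMod.ModField ℂ N) :
        KMod.ModField ℂ N →+* KMod.ModField ℂ N).comp (KMod.modFieldIncl Kbar N)
      = (KMod.modFieldIncl Kbar N).comp
        ((KMod.modRep Kbar N γ : KMod.ModField Kbar N ≃ₐ[Kbar] KMod.ModField Kbar N) :
          KMod.ModField Kbar N →+* KMod.ModField Kbar N) := by
    apply IsLocalization.ringHom_ext (nonZeroDivisors (KMod.modRing Kbar N))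
    ext r
    simp only [RingHom.coe_comp, Function.comp_apply, RingHom.coe_coe]
    rw [KMod.modFieldIncl_algebraMap, KMod.modRep_algebraMap, KMod.modRep_algebraMap,
      KMod.modFieldIncl_algebraMap, mzk_modAct_incl]
  exact congrArg (fun f : KMod.ModField Kbar N →+* KMod.ModField ℂ N => f x) h

/-- every place of `ℚ̄(X₀(N))` has an extension to `ℂ(X₀(N))`, up to a ramification factor -/
theorem mzk_exists_over (p : Place Kbar (MzFK N)) :
    ∃ (P : Place ℂ (MzF N)) (A B : ℕ), 0 < A ∧ 0 < B ∧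
      ∀ y : MzFK N, (A : ℤ) * P.ord (mzkB N y) = B * p.ord y := by
  obtain ⟨v, rfl⟩ := KMod.exists_barPlace_eq Kbar N p
  rcases KMod.place_cases Kbar N v with ⟨γ, rfl⟩ | ⟨a, τ₀, ha, γ, -, -, rfl⟩
  · obtain ⟨e, he, h1, -⟩ := KMod.exists_e_cuspPlace Kbar N γ
    obtain ⟨e', he', h1', -⟩ := KMod.exists_e_cuspPlace ℂ N γ
    refine ⟨KMod.barPlace ℂ N (KMod.modRep ℂ N γ • KMod.inftyPlace ℂ N), e', e, he', he,
      fun y => ?_⟩
    by_cases hy : y = 0
    · rw [hy, map_zero, Place.ord_zero, Place.ord_zero, mul_zero, mul_zero]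
    have hy' : mzkB N y ≠ 0 := (map_ne_zero_iff _ (KMod.bcHom_injective Kbar N)).mpr hy
    rw [← h1' _ hy', ← h1 y hy, KMod.modIso_bcHom, mzk_modRep_incl, KMod.modFieldQL_modFieldIncl]
  · have ha' : (algebraMap Kbar ℂ) a = jFun (γ • τ₀) := by rw [ha, jFun_smul]
    rw [KMod.smul_pointPlace Kbar N γ τ₀ a ha ha']
    obtain ⟨E, hE, h1, -⟩ := KMod.exists_E_pointPlace Kbar N (γ • τ₀) a ha'
    have ha'' : (algebraMap ℂ ℂ) ((algebraMap Kbar ℂ) a) = jFun (γ • τ₀) := ha'
    obtain ⟨E', hE', h1', -⟩ :=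
      KMod.exists_E_pointPlace ℂ N (γ • τ₀) ((algebraMap Kbar ℂ) a) ha''
    refine ⟨KMod.barPlace ℂ N (KMod.pointPlace ℂ N (γ • τ₀) _ ha''), E', E, hE', hE, fun y => ?_⟩
    rw [← h1' (mzkB N y), ← h1 y, KMod.toMer_modIso_bcHom]

/-! ### algebraic numbers -/

theorem mzk_algebraMap_mem_cl (S : Set ℂ) (a : Kbar) : (algebraMap Kbar ℂ) a ∈ mzkCl S := by
  rw [mzk_mem_cl_iff]
  have h1 : IsAlgebraic ℚ a := (AlgebraicClosure.isAlgebraic ℚ).isAlgebraic a
  have h2 : IsAlgebraic ℚ ((algebraMap Kbar ℂ) a) :=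
    IsAlgebraic.algHom ((algebraMap Kbar ℂ).toRatAlgHom) h1
  exact h2.tower_top _

theorem mzk_mem_range_of_mem_cl_empty {x : ℂ} (hx : x ∈ mzkCl ∅) :
    x ∈ (algebraMap Kbar ℂ).range := by
  rw [mzk_mem_cl_iff, Subfield.closure_empty] at hx
  set R : Subfield ℂ := (algebraMap Kbar ℂ).fieldRange with hR
  have hx' : IsAlgebraic ↥R x := mzk_isAlgebraic_mono bot_le hx
  haveI : IsAlgClosed ↥R :=
    IsAlgClosed.of_ringEquiv Kbar ↥R (algebraMap Kbar ℂ).rangeRestrictFieldEquiv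
  have hint : IsIntegral ↥R x := hx'.isIntegral
  obtain ⟨y, hy⟩ := minpoly.mem_range_of_degree_eq_one ↥R x
    (IsAlgClosed.degree_eq_one_of_irreducible ↥R (minpoly.irreducible hint))
  obtain ⟨a, ha⟩ := y.2
  exact ⟨a, by rw [ha, ← hy]; rfl⟩

/-! ### the counting lemma -/

theorem mzk_count {α β : Type*} [DecidableEq β] (ZK : Finset α) (Zc : Finset β) (e : α → β)
    (he : Function.Injective e) (wK : α → ℤ) (wc : β → ℤ) (r : α → ℕ) (hr : ∀ p, 0 < r p)
    (hmap : ∀ p ∈ ZK, e p ∈ Zc) (hw : ∀ p, wc (e p) = r p * wK p) (hK : ∀ p ∈ ZK, 0 < wK p)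
    (hc : ∀ P ∈ Zc, 0 < wc P) (hsum : ∑ p ∈ ZK, wK p = ∑ P ∈ Zc, wc P) :
    (∀ p ∈ ZK, r p = 1) ∧ ∀ P ∈ Zc, ∃ p ∈ ZK, e p = P := by
  have hsub : ZK.image e ⊆ Zc := by
    intro P hP
    obtain ⟨p, hp, rfl⟩ := Finset.mem_image.mp hP
    exact hmap p hp
  have h1 := Finset.sum_sdiff (f := wc) hsub
  have h2 : ∑ P ∈ ZK.image e, wc P = ∑ p ∈ ZK, (r p : ℤ) * wK p := by
    rw [Finset.sum_image (fun a _ b _ hab => he hab)]
    exact Finset.sum_congr rfl fun p _ => hw p
  have h3 : ∀ p ∈ ZK, wK p ≤ (r p : ℤ) * wK p := by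
    intro p hp
    have h4 : (1 : ℤ) ≤ r p := by exact_mod_cast hr p
    nlinarith [hK p hp]
  have h4 : ∑ p ∈ ZK, wK p ≤ ∑ p ∈ ZK, (r p : ℤ) * wK p := Finset.sum_le_sum h3
  have h5 : 0 ≤ ∑ P ∈ Zc \ ZK.image e, wc P :=
    Finset.sum_nonneg fun P hP => (hc P (Finset.mem_sdiff.mp hP).1).le
  have h6 : ∑ P ∈ Zc \ ZK.image e, wc P = 0 := by omega
  have h7 : ∑ p ∈ ZK, (r p : ℤ) * wK p = ∑ p ∈ ZK, wK p := by omega
  constructor
  · intro p hp
    have h8 := (Finset.sum_eq_sum_iff_of_le h3).mp h7.symm p hp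
    have h9 := hK p hp
    have h10 : ((r p : ℤ) - 1) * wK p = 0 := by linarith
    rcases mul_eq_zero.mp h10 with h | h
    · have : (r p : ℤ) = 1 := by linarith
      exact_mod_cast this
    · omega
  · intro P hP
    by_contra hcon
    have hmem : P ∈ Zc \ ZK.image e := by
      rw [Finset.mem_sdiff, Finset.mem_image]
      exact ⟨hP, hcon⟩
    have h8 := (Finset.sum_eq_zero_iff_of_nonneg
      (fun Q hQ => (hc Q (Finset.mem_sdiff.mp hQ).1).le)).mp h6 P hmem
    have := hc P hP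
    omega

/-! ### the extension of a place -/

theorem mzk_exists_over' (p : Place Kbar (MzFK N)) :
    ∃ (P : Place ℂ (MzF N)) (r : ℕ), 0 < r ∧
      ∀ y : MzFK N, P.ord (mzkB N y) = (r : ℤ) * p.ord y := by
  obtain ⟨P, A, B, hA, hB, h⟩ := mzk_exists_over p
  obtain ⟨t, ht⟩ := RRAux.exists_uniformizer p
  have h1 := h t
  rw [ht, mul_one] at h1
  have hA' : (0 : ℤ) < A := by exact_mod_cast hA
  have hB' : (0 : ℤ) < B := by exact_mod_cast hB
  have hk : 0 < P.ord (mzkB N t) := by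
    by_contra hcon
    push Not at hcon
    nlinarith
  refine ⟨P, (P.ord (mzkB N t)).toNat, by omega, fun y => ?_⟩
  have h2 := h y
  have h3 : ((P.ord (mzkB N t)).toNat : ℤ) = P.ord (mzkB N t) := Int.toNat_of_nonneg hk.le
  rw [h3]
  have h4 : (A : ℤ) * P.ord (mzkB N y) = (A : ℤ) * (P.ord (mzkB N t) * p.ord y) := by
    rw [h2, ← h1]
    ring
  exact mul_left_cancel₀ hA'.ne' h4

/-- the extension of a place of `ℚ̄(X₀(N))` to `ℂ(X₀(N))` -/
noncomputable def mzkExt (p : Place Kbar (MzFK N)) : Place ℂ (MzF N) :=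
  (mzk_exists_over' p).choose

/-- the ramification index (it is `1`, see `mzkRam_eq_one`) -/
noncomputable def mzkRam (p : Place Kbar (MzFK N)) : ℕ :=
  (mzk_exists_over' p).choose_spec.choose

theorem mzkRam_pos (p : Place Kbar (MzFK N)) : 0 < mzkRam p :=
  (mzk_exists_over' p).choose_spec.choose_spec.1

theorem mzkExt_ord' (p : Place Kbar (MzFK N)) (y : MzFK N) :
    (mzkExt p).ord (mzkB N y) = (mzkRam p : ℤ) * p.ord y :=
  (mzk_exists_over' p).choose_spec.choose_spec.2 y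

theorem mzkB_injective : Function.Injective (mzkB N) := KMod.bcHom_injective Kbar N

theorem mzkB_mem_ext_iff (p : Place Kbar (MzFK N)) (y : MzFK N) :
    mzkB N y ∈ (mzkExt p).toValuationSubring ↔ y ∈ p.toValuationSubring := by
  rw [mem_iff, mem_iff, mzkExt_ord', map_eq_zero_iff _ mzkB_injective]
  have h := mzkRam_pos p
  have h' : (0 : ℤ) < mzkRam p := by exact_mod_cast h
  constructor
  · rintro (h1 | h1)
    · exact Or.inl h1
    · right
      by_contra hcon
      push Not at hcon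
      nlinarith
  · rintro (h1 | h1)
    · exact Or.inl h1
    · right
      positivity

theorem mzkExt_injective : Function.Injective (mzkExt (N := N)) := by
  intro p p' h
  apply Place.ext
  ext y
  rw [← mzkB_mem_ext_iff p, ← mzkB_mem_ext_iff p', h]

theorem mzkB_j : mzkB N (KMod.jBar Kbar N) = mzkj N := by
  apply Subtype.ext
  rw [KMod.coe_bcHom, KMod.coe_jBar', KMod.coeffMap_coeffEmb_complex]
  exact (KMod.coe_jBar' ℂ N).symm

theorem mzkB_algebraMap (a : Kbar) :
    mzkB N (algebraMap Kbar (MzFK N) a) = algebraMap ℂ (MzF N) ((algebraMap Kbar ℂ) a) := by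
  apply Subtype.ext
  rw [KMod.coe_bcHom]
  exact KMod.coeffMap_algebraMap_complex Kbar a

theorem mzkB_j_sub (a : Kbar) :
    mzkB N (KMod.jBar Kbar N - algebraMap Kbar (MzFK N) a)
      = mzkj N - algebraMap ℂ (MzF N) ((algebraMap Kbar ℂ) a) := by
  rw [map_sub, mzkB_j, mzkB_algebraMap]

/-! ### counting the places over a given algebraic `j`-value -/

theorem mzk_count_zeros (a : Kbar) :
    (∀ p : Place Kbar (MzFK N), 0 < p.ord (KMod.jBar Kbar N - algebraMap Kbar (MzFK N) a) →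
      mzkRam p = 1) ∧
    ∀ P : Place ℂ (MzF N), 0 < P.ord (mzkj N - algebraMap ℂ (MzF N) ((algebraMap Kbar ℂ) a)) →
      ∃ p : Place Kbar (MzFK N), mzkExt p = P := by
  classical
  have hxK := KMod.isFunctionFieldGen_jBar Kbar N
  have hfK := finite_zeros hxK a
  have hfc := finite_zeros (mzkHx N) ((algebraMap Kbar ℂ) a)
  have hsK := sum_ord_zeros hxK a
  have hsc := sum_ord_zeros (mzkHx N) ((algebraMap Kbar ℂ) a)
  rw [finsum_mem_eq_finite_toFinset_sum _ hfK, KMod.finrank_jBar] at hsK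
  rw [finsum_mem_eq_finite_toFinset_sum _ hfc] at hsc
  have hsc' : ∑ P ∈ hfc.toFinset, P.ord (mzkj N - algebraMap ℂ (MzF N) ((algebraMap Kbar ℂ) a))
      = (dedekindPsi N : ℤ) := by
    rw [hsc]
    exact congrArg _ (KMod.finrank_jBar ℂ N)
  have hw : ∀ p : Place Kbar (MzFK N),
      (mzkExt p).ord (mzkj N - algebraMap ℂ (MzF N) ((algebraMap Kbar ℂ) a))
        = (mzkRam p : ℤ) * p.ord (KMod.jBar Kbar N - algebraMap Kbar (MzFK N) a) := by
    intro p
    rw [← mzkB_j_sub, mzkExt_ord']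
  obtain ⟨h1, h2⟩ := mzk_count hfK.toFinset hfc.toFinset mzkExt mzkExt_injective
    (fun p => p.ord (KMod.jBar Kbar N - algebraMap Kbar (MzFK N) a))
    (fun P => P.ord (mzkj N - algebraMap ℂ (MzF N) ((algebraMap Kbar ℂ) a)))
    mzkRam mzkRam_pos
    (by
      intro p hp
      rw [Set.Finite.mem_toFinset, Set.mem_ofPred_eq] at hp ⊢
      rw [hw p]
      have := mzkRam_pos p
      positivity)
    hw
    (by
      intro p hp
      rwa [Set.Finite.mem_toFinset, Set.mem_ofPred_eq] at hp)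
    (by
      intro P hP
      rwa [Set.Finite.mem_toFinset, Set.mem_ofPred_eq] at hP)
    (by rw [hsK, hsc'])
  constructor
  · intro p hp
    exact h1 p (by rwa [Set.Finite.mem_toFinset, Set.mem_ofPred_eq])
  · intro P hP
    obtain ⟨p, -, hp⟩ := h2 P (by rwa [Set.Finite.mem_toFinset, Set.mem_ofPred_eq])
    exact ⟨p, hp⟩

theorem mzk_count_poles :
    (∀ p : Place Kbar (MzFK N), p.ord (KMod.jBar Kbar N) < 0 → mzkRam p = 1) ∧
    ∀ P : Place ℂ (MzF N), P.ord (mzkj N) < 0 → ∃ p : Place Kbar (MzFK N), mzkExt p = P := by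
  classical
  have hxK := KMod.isFunctionFieldGen_jBar Kbar N
  have hfK := finite_poles hxK
  have hfc := finite_poles (mzkHx N)
  have hsK := sum_ord_poles hxK
  have hsc := sum_ord_poles (mzkHx N)
  rw [finsum_mem_eq_finite_toFinset_sum _ hfK, KMod.finrank_jBar] at hsK
  rw [finsum_mem_eq_finite_toFinset_sum _ hfc] at hsc
  have hsc' : ∑ P ∈ hfc.toFinset, -P.ord (mzkj N) = (dedekindPsi N : ℤ) := by
    rw [hsc]
    exact congrArg _ (KMod.finrank_jBar ℂ N)
  have hw : ∀ p : Place Kbar (MzFK N),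
      -(mzkExt p).ord (mzkj N) = (mzkRam p : ℤ) * -p.ord (KMod.jBar Kbar N) := by
    intro p
    rw [← mzkB_j, mzkExt_ord']
    ring
  obtain ⟨h1, h2⟩ := mzk_count hfK.toFinset hfc.toFinset mzkExt mzkExt_injective
    (fun p => -p.ord (KMod.jBar Kbar N)) (fun P => -P.ord (mzkj N))
    mzkRam mzkRam_pos
    (by
      intro p hp
      rw [Set.Finite.mem_toFinset, Set.mem_ofPred_eq] at hp ⊢
      have h3 := hw p
      have := mzkRam_pos p
      have h4 : (0 : ℤ) < mzkRam p := by exact_mod_cast this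
      nlinarith)
    hw
    (by
      intro p hp
      rw [Set.Finite.mem_toFinset, Set.mem_ofPred_eq] at hp
      omega)
    (by
      intro P hP
      rw [Set.Finite.mem_toFinset, Set.mem_ofPred_eq] at hP
      omega)
    (by rw [hsK, hsc'])
  constructor
  · intro p hp
    exact h1 p (by rwa [Set.Finite.mem_toFinset, Set.mem_ofPred_eq])
  · intro P hP
    obtain ⟨p, -, hp⟩ := h2 P (by rwa [Set.Finite.mem_toFinset, Set.mem_ofPred_eq])
    exact ⟨p, hp⟩

theorem mzkRam_eq_one (p : Place Kbar (MzFK N)) : mzkRam p = 1 := by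
  rcases pole_or_zero (KMod.isFunctionFieldGen_jBar Kbar N) p with h | ⟨a, ha⟩
  · exact mzk_count_poles.1 p h
  · exact (mzk_count_zeros a).1 p ha

/-- **the order at the extended place** -/
theorem mzkExt_ord (p : Place Kbar (MzFK N)) (y : MzFK N) :
    (mzkExt p).ord (mzkB N y) = p.ord y := by
  rw [mzkExt_ord', mzkRam_eq_one, Nat.cast_one, one_mul]

/-- **the places algebraic over `ℚ` are the extended places** -/
theorem mzkExt_surj {P : Place ℂ (MzF N)} (hP : mzkJ P ∈ mzkCl ∅) :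
    ∃ p : Place Kbar (MzFK N), mzkExt p = P := by
  by_cases hj : mzkj N ∈ P.toValuationSubring
  · obtain ⟨a, ha⟩ := mzk_mem_range_of_mem_cl_empty hP
    apply (mzk_count_zeros a).2 P
    have h1 := mzkVal_spec hj
    rw [ordGE_iff] at h1
    rcases h1 with h1 | h1
    · exact absurd h1 (mzkj_sub_ne_zero _)
    · rw [ha]
      have h2 : mzkJ P = mzkVal P (mzkj N) := rfl
      rw [h2]
      omega
  · apply mzk_count_poles.2 P
    rw [mem_iff] at hj
    push Not at hj
    exact hj.2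

end Fermat.Agent.Mazur
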