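/-
MAZUR (K), part 11: base change of divisors and divisor classes from `ℚ̄(X₀(N))` to `ℂ(X₀(N))`:
the homomorphism `mzkBC : J₀(N)(ℚ̄) → Pic⁰(ℂ(X₀(N)))` is injective and its image is fixed by
`Aut(ℂ/ℚ̄)`.
-/
import Mathlib
import Fermat.Agent.Lib.Mazur.K.BCPlace
import Fermat.Agent.Lib.T1.Dict.DescentLin
import Fermat.Agent.Lib.T1.Desc.Basic

set_option autoImplicit false
set_option linter.unusedSectionVars false
set_option linter.style.haveILetI false
set_option linter.unusedVariables false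

namespace Fermat.Agent.Mazur

open AlgebraicCurve ModularCurve Fermat.Agent.T1 Fermat.Agent.Curve Fermat.Agent.Curve.PlaceAux
open Fermat.Agent.Curve.RRAux
open Fermat.Agent.S24Lib
open WithZero

local notation "Kbar" => AlgebraicClosure ℚ

variable {N : ℕ} [NeZero N]

/-! ### extended places are algebraic, base changed functions are defined over `ℚ̄` -/

theorem mzkExt_algebraic (p : Place Kbar (MzFK N)) : mzkJ (mzkExt p) ∈ mzkCl ∅ := by
  rcases pole_or_zero (KMod.isFunctionFieldGen_jBar Kbar N) p with h | ⟨a, ha⟩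
  · have h1 : (mzkExt p).ord (mzkj N) < 0 := by
      rw [← mzkB_j, mzkExt_ord]
      exact h
    have h2 : mzkj N ∉ (mzkExt p).toValuationSubring := by
      rw [mem_iff]
      push Not
      exact ⟨mzkj_ne_zero, h1⟩
    rw [mzkJ, mzkVal_of_notMem h2]
    exact zero_mem _
  · have h1 : 0 < (mzkExt p).ord (mzkj N - algebraMap ℂ (MzF N) ((algebraMap Kbar ℂ) a)) := by
      rw [← mzkB_j_sub, mzkExt_ord]
      exact ha
    have h2 : mzkJ (mzkExt p) = (algebraMap Kbar ℂ) a := by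
      apply mzkVal_eq
      rw [ordGE_iff]
      right
      omega
    rw [h2]
    exact mzk_algebraMap_mem_cl ∅ a

theorem mzkExt_fixed (p : Place Kbar (MzFK N)) {σ : ℂ ≃ₐ[ℚ] ℂ} (hσ : σ ∈ mzkH ∅) :
    mzkG N σ • mzkExt p = mzkExt p :=
  mzk_smul_eq_of_mem_cl (mzkExt_algebraic p) hσ

theorem mzkDef_B (S : Set ℂ) (y : MzFK N) : mzkDef S (mzkB N y) := by
  intro n
  rw [KMod.coe_bcHom, coeffMap_coeff]
  exact mzk_algebraMap_mem_cl S _

/-- **descent of functions**: a function all of whose `q`-coefficients are algebraic over `ℚ`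
comes from `ℚ̄(X₀(N))` -/
theorem mzk_exists_B_eq {f : MzF N} (hf : mzkDef ∅ f) : ∃ y : MzFK N, mzkB N y = f := by
  obtain ⟨w, hw⟩ := tdd_mem_range_coeffMap (algebraMap Kbar ℂ) (f : LaurentSeries ℂ)
    (fun n => mzk_mem_range_of_mem_cl_empty (hf n))
  have hmem : w ∈ KMod.barField Kbar N := by
    apply tdx_mem_of_coeffMap_mem (modularFunctionFieldFull N) (algebraMap Kbar ℂ)
    rw [hw]
    exact f.2
  exact ⟨⟨w, hmem⟩, Subtype.ext hw⟩

/-! ### base change of divisors -/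

/-- base change of divisors -/
noncomputable def mzkBCdiv : Divisor Kbar (MzFK N) →+ Divisor ℂ (MzF N) :=
  Finsupp.mapDomain.addMonoidHom mzkExt

theorem mzkBCdiv_single (p : Place Kbar (MzFK N)) (n : ℤ) :
    mzkBCdiv (Finsupp.single p n) = Finsupp.single (mzkExt p) n :=
  Finsupp.mapDomain_single

theorem mzkBCdiv_apply_ext (E : Divisor Kbar (MzFK N)) (p : Place Kbar (MzFK N)) :
    mzkBCdiv E (mzkExt p) = E p :=
  Finsupp.mapDomain_apply mzkExt_injective E p

theorem mzkBCdiv_apply_of_notMem (E : Divisor Kbar (MzFK N)) {P : Place ℂ (MzF N)}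
    (hP : P ∉ Set.range (mzkExt (N := N))) : mzkBCdiv E P = 0 :=
  Finsupp.mapDomain_of_notMem_range E P hP

theorem mzkBCdiv_injective : Function.Injective (mzkBCdiv (N := N)) :=
  Finsupp.mapDomain_injective mzkExt_injective

theorem mzkBCdiv_degree (E : Divisor Kbar (MzFK N)) :
    Divisor.degree (mzkBCdiv E) = Divisor.degree E := by
  induction E using Finsupp.induction_linear with
  | zero => rw [map_zero, map_zero, map_zero]
  | add E E' h h' => rw [map_add, map_add, h, h', map_add]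
  | single p n =>
    rw [mzkBCdiv_single, Divisor.degree_single, Divisor.degree_single,
      deg_eq_one (mzkHx N), deg_eq_one (KMod.isFunctionFieldGen_jBar Kbar N)]

theorem mzkBCdiv_smul (E : Divisor Kbar (MzFK N)) {σ : ℂ ≃ₐ[ℚ] ℂ} (hσ : σ ∈ mzkH ∅) :
    mzkG N σ • mzkBCdiv E = mzkBCdiv E := by
  induction E using Finsupp.induction_linear with
  | zero => rw [map_zero, smul_zero]
  | add E E' h h' => rw [map_add, smul_add, h, h']
  | single p n => rw [mzkBCdiv_single, SemilinearAut.smul_single, mzkExt_fixed p hσ]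

/-- base change commutes with the divisor of a function -/
theorem mzkBCdiv_divOf {y : MzFK N} (hy : y ≠ 0) :
    mzkBCdiv (divOf (KMod.isFunctionFieldGen_jBar Kbar N) y) = divOf (mzkHx N) (mzkB N y) := by
  have hy' : mzkB N y ≠ 0 := (map_ne_zero_iff _ mzkB_injective).mpr hy
  ext P
  rw [divOf_apply _ hy']
  by_cases hP : P ∈ Set.range (mzkExt (N := N))
  · obtain ⟨p, rfl⟩ := hP
    rw [mzkBCdiv_apply_ext, divOf_apply _ hy, mzkExt_ord]
  · rw [mzkBCdiv_apply_of_notMem _ hP]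
    have hgen : mzkJ P ∉ mzkCl ∅ := fun h => hP (mzkExt_surj h)
    exact (mzk_ord_eq_zero_of_generic (mzkDef_B ∅ y) hy' hgen).symm

theorem mzk_principalK_iff {E : Divisor Kbar (MzFK N)} :
    E ∈ Divisor.principal (K := Kbar) (F := MzFK N) ↔
      ∃ y : MzFK N, y ≠ 0 ∧ E = divOf (KMod.isFunctionFieldGen_jBar Kbar N) y := by
  constructor
  · rintro ⟨f, hf, h⟩
    refine ⟨f, hf, ?_⟩
    ext v
    rw [h v, divOf_apply _ hf]
  · rintro ⟨f, hf, rfl⟩
    exact ⟨f, hf, fun v => divOf_apply _ hf v⟩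

theorem mzkBCdiv_principal {E : Divisor Kbar (MzFK N)}
    (hE : E ∈ Divisor.principal (K := Kbar) (F := MzFK N)) :
    mzkBCdiv E ∈ Divisor.principal (K := ℂ) (F := MzF N) := by
  obtain ⟨y, hy, rfl⟩ := mzk_principalK_iff.mp hE
  rw [mzkBCdiv_divOf hy]
  exact mzk_principal_iff.mpr ⟨_, (map_ne_zero_iff _ mzkB_injective).mpr hy, rfl⟩

theorem mzk_eq_zero_of_nonneg {E : Divisor ℂ (MzF N)} (hE : 0 ≤ E) (hdeg : Divisor.degree E = 0) :
    E = 0 := by
  obtain ⟨P, hP⟩ := mzk_exists_sum 0 E hE (by rw [hdeg]; rfl)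
  rw [hP, mzkSum_zero]

/-- a divisor whose base change is principal is principal -/
theorem mzk_principal_of_BCdiv {E : Divisor Kbar (MzFK N)}
    (hE : mzkBCdiv E ∈ Divisor.principal (K := ℂ) (F := MzF N)) :
    E ∈ Divisor.principal (K := Kbar) (F := MzFK N) := by
  obtain ⟨f, hf0, hf⟩ := mzk_principal_iff.mp hE
  set E' : Divisor ℂ (MzF N) := mzkBCdiv E with hE'
  have hmem : f⁻¹ ∈ riemannRochSpace E' := by
    rw [mem_riemannRochSpace_iff]
    intro v
    right
    rw [hf, divOf_apply _ hf0, Place.ord_inv]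
  have hbot : riemannRochSpace E' ≠ ⊥ := by
    intro h
    have h1 : f⁻¹ ∈ (⊥ : Submodule ℂ (MzF N)) := h ▸ hmem
    exact inv_ne_zero hf0 ((Submodule.mem_bot ℂ).mp h1)
  haveI := finiteDimensional_riemannRochSpace (mzkHx N) E'
  obtain ⟨f₀, hf₀, hf₀0, hf₀S⟩ := mzk_exists_def_ne_zero ∅ (riemannRochSpace E') hbot
    (fun σ hσ w hw => by
      have h := mzk_smul_mem_rr σ hw
      rwa [mzkBCdiv_smul E hσ] at h)
  have h1 : E' + divOf (mzkHx N) f₀ = 0 := by
    apply mzk_eq_zero_of_nonneg (add_divOf_nonneg (mzkHx N) hf₀ hf₀0)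
    rw [degree_add_divOf, hf, degree_divOf]
  obtain ⟨y₀, hy₀⟩ := mzk_exists_B_eq hf₀S
  have hy₀0 : y₀ ≠ 0 := by
    rintro rfl
    rw [map_zero] at hy₀
    exact hf₀0 hy₀.symm
  have h2 : mzkBCdiv (E + divOf (KMod.isFunctionFieldGen_jBar Kbar N) y₀) = mzkBCdiv 0 := by
    rw [map_add, mzkBCdiv_divOf hy₀0, hy₀, map_zero]
    exact h1
  have h3 := mzkBCdiv_injective h2
  have h4 : E = -divOf (KMod.isFunctionFieldGen_jBar Kbar N) y₀ := eq_neg_of_add_eq_zero_left h3
  rw [h4]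
  exact neg_mem (mzk_principalK_iff.mpr ⟨y₀, hy₀0, rfl⟩)

/-! ### base change of divisor classes -/

/-- base change on divisors of degree zero -/
noncomputable def mzkBCdeg0 :
    Divisor.degZero (K := Kbar) (F := MzFK N) →+ Divisor.degZero (K := ℂ) (F := MzF N) :=
  ((mzkBCdiv (N := N)).comp (Divisor.degZero (K := Kbar) (F := MzFK N)).subtype).codRestrict _
    (fun E => by
      rw [Divisor.mem_degZero]
      show Divisor.degree (mzkBCdiv (E : Divisor Kbar (MzFK N))) = 0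
      rw [mzkBCdiv_degree]
      exact E.2)

theorem coe_mzkBCdeg0 (E : Divisor.degZero (K := Kbar) (F := MzFK N)) :
    ((mzkBCdeg0 E : Divisor.degZero (K := ℂ) (F := MzF N)) : Divisor ℂ (MzF N))
      = mzkBCdiv (E : Divisor Kbar (MzFK N)) := rfl

variable (N) in
/-- **base change of divisor classes** `J₀(N)(ℚ̄) → Pic⁰(ℂ(X₀(N)))` -/
noncomputable def mzkBC : JZero N →+ Pic0 ℂ (MzF N) :=
  QuotientAddGroup.map _ _ mzkBCdeg0 (by
    rintro ⟨E, hE0⟩ hE
    simp only [AddSubgroup.mem_addSubgroupOf, AddSubgroup.mem_comap] at hE ⊢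
    exact mzkBCdiv_principal hE)

theorem mzkBC_mk (E : Divisor.degZero (K := Kbar) (F := MzFK N)) :
    mzkBC N (Pic0.mk E) = Pic0.mk (mzkBCdeg0 E) := rfl

theorem mzkBC_injective : Function.Injective (mzkBC N) := by
  rw [injective_iff_map_eq_zero]
  intro x hx
  obtain ⟨E, rfl⟩ := Pic0.mk_surjective x
  rw [mzkBC_mk] at hx
  have h1 : mzkBCdeg0 E ∈ (Divisor.principal (K := ℂ) (F := MzF N)).addSubgroupOf
      (Divisor.degZero (K := ℂ) (F := MzF N)) := (QuotientAddGroup.eq_zero_iff _).mp hx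
  rw [AddSubgroup.mem_addSubgroupOf, coe_mzkBCdeg0] at h1
  have h2 := mzk_principal_of_BCdiv h1
  exact (QuotientAddGroup.eq_zero_iff _).mpr (by rwa [AddSubgroup.mem_addSubgroupOf])

/-- base changed classes are fixed by `Aut(ℂ/ℚ̄)` -/
theorem mzkBC_fixed (x : JZero N) {σ : ℂ ≃ₐ[ℚ] ℂ} (hσ : σ ∈ mzkH ∅) :
    mzkG N σ • mzkBC N x = mzkBC N x := by
  obtain ⟨E, rfl⟩ := Pic0.mk_surjective x
  rw [mzkBC_mk, SemilinearAut.pic0_smul_mk]
  apply congrArg
  apply Subtype.ext
  rw [SemilinearAut.coe_degZeroSMulHom, coe_mzkBCdeg0, mzkBCdiv_smul _ hσ]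

end Fermat.Agent.Mazur
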