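/-
MAZUR (K), part 12: the canonical representative `[E - n ∞]` (`n` minimal) of a divisor class, and
(B3): a class of `Pic⁰(ℂ(X₀(N)))` with finite orbit under `Aut(ℂ/ℚ̄)` comes from `J₀(N)(ℚ̄)`.
-/
import Mathlib
import Fermat.Agent.Lib.Mazur.K.BCDiv

set_option autoImplicit false
set_option linter.unusedSectionVars false
set_option linter.style.haveILetI false
set_option linter.unusedVariables false

namespace Fermat.Agent.Mazur

open AlgebraicCurve ModularCurve Fermat.Agent.T1 Fermat.Agent.Curve Fermat.Agent.Curve.PlaceAux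
open Fermat.Agent.Curve.RRAux
open Fermat.Agent.S24Lib
open WithZero

local notation "Kbar" => AlgebraicClosure ℚ

variable {N : ℕ} [NeZero N]

theorem mzk_degree_ptn (P : ℕ → Place ℂ (MzF N)) (n : ℕ) :
    Divisor.degree (mzkSum P n - Finsupp.single (mzkO (N := N)) (n : ℤ)) = 0 := by
  rw [map_sub, mzk_degree_sum, mzk_degree_single, sub_self]

/-- the class of `P₀ + ⋯ + P_{n-1} - n ∞` -/
noncomputable def mzkPtn (P : ℕ → Place ℂ (MzF N)) (n : ℕ) : Pic0 ℂ (MzF N) :=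
  mzkCls _ (mzk_degree_ptn P n)

theorem mzkPtn_smul (σ : ℂ ≃ₐ[ℚ] ℂ) (P : ℕ → Place ℂ (MzF N)) (n : ℕ) :
    mzkG N σ • mzkPtn P n = mzkPtn (fun i => mzkG N σ • P i) n := by
  rw [mzkPtn, mzkCls_smul, mzkPtn, mzkCls_eq_iff, smul_sub, mzk_smul_sum,
    SemilinearAut.smul_single, mzk_smul_O, sub_self]
  exact zero_mem _

theorem mzkSum_eq_of_ptn_eq {P Q : ℕ → Place ℂ (MzF N)} {n : ℕ} (h1 : ell (mzkSum P n) = 1)
    (h : mzkPtn Q n = mzkPtn P n) : mzkSum Q n = mzkSum P n := by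
  apply mzk_eq_of_ell_eq_one (mzkSum_nonneg P _) h1 (mzkSum_nonneg Q _)
  rw [mzkPtn, mzkPtn, mzkCls_eq_iff] at h
  have h2 : mzkSum Q n - mzkSum P n =
      -(mzkSum P n - Finsupp.single (mzkO (N := N)) (n : ℤ) -
        (mzkSum Q n - Finsupp.single (mzkO (N := N)) (n : ℤ))) := by abel
  rw [h2]
  exact neg_mem h

/-- if `ℓ(P₀ + ⋯ + P_{n-1}) = 1` and the class `[P₀ + ⋯ - n∞]` has a finite orbit under `mzkH S`
then the `P_i` are `S`-algebraic -/
theorem mzkJ_mem_cl_of_finite_orbit_ptn {S : Set ℂ} {P : ℕ → Place ℂ (MzF N)} {n : ℕ}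
    (h1 : ell (mzkSum P n) = 1)
    (hfin : (Set.range fun σ : mzkH S => mzkG N (σ : ℂ ≃ₐ[ℚ] ℂ) • mzkPtn P n).Finite)
    {i : ℕ} (hi : i < n) : mzkJ (P i) ∈ mzkCl S := by
  apply mzkJ_mem_cl_of_finite_orbit
  have hE : (Set.range fun σ : mzkH S => mzkG N (σ : ℂ ≃ₐ[ℚ] ℂ) • mzkSum P n).Finite := by
    refine mzk_finite_range_of_factors _ _ ?_ hfin
    intro σ τ hστ
    simp only [mzkPtn_smul] at hστ
    rw [mzk_smul_sum, mzk_smul_sum]
    refine mzkSum_eq_of_ptn_eq ?_ hστ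
    rw [← mzk_smul_sum, mzk_ell_smul, h1]
  refine (hE.biUnion (t := fun E : Divisor ℂ (MzF N) => (E.support : Set (Place ℂ (MzF N))))
    fun E _ => E.support.finite_toSet).subset ?_
  rintro _ ⟨σ, rfl⟩
  rw [Set.mem_iUnion₂]
  refine ⟨_, ⟨σ, rfl⟩, ?_⟩
  rw [Finset.mem_coe, Finsupp.mem_support_iff, SemilinearAut.divisor_smul_apply_smul]
  exact (mzkSum_apply_pos hi).ne'

/-- **the canonical representative** -/
theorem mzk_exists_canonical (z : Pic0 ℂ (MzF N)) :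
    ∃ (n : ℕ) (Q : ℕ → Place ℂ (MzF N)), z = mzkPtn Q n ∧ ell (mzkSum Q n) = 1 := by
  classical
  have hex : ∃ n : ℕ, ∃ Q : ℕ → Place ℂ (MzF N), z = mzkPtn Q n := by
    obtain ⟨Q, hQ⟩ := mzk_exists_pt z
    exact ⟨mzkg N, Q, hQ⟩
  obtain ⟨Q, hQ⟩ := Nat.find_spec hex
  set n := Nat.find hex with hn
  refine ⟨n, Q, hQ, ?_⟩
  set E := mzkSum Q n with hE
  have hpos : 0 < ell E := mzk_ell_pos_of_mem (mzk_one_mem_rr (mzkSum_nonneg Q n)) one_ne_zero
  by_contra hne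
  have h2 : 2 ≤ ell E := by omega
  rcases Nat.eq_zero_or_pos n with h0 | h0
  · rw [hE, h0, mzkSum_zero, WeilAux.ell_zero (mzkHx N)] at h2
    omega
  have h3 := mzk_ell_le_sub_single_add_one E (mzkO (N := N))
  have h4 : 0 < ell (E - Finsupp.single (mzkO (N := N)) 1) := by omega
  obtain ⟨E', hE'0, hE'⟩ := mzk_exists_effective_of_ell_pos h4
  have hdeg : Divisor.degree E' = ((n - 1 : ℕ) : ℤ) := by
    obtain ⟨f, hf0, hf⟩ := mzk_principal_iff.mp hE'
    have h5 : E' = E - Finsupp.single (mzkO (N := N)) 1 + divOf (mzkHx N) f := by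
      rw [← hf]; abel
    rw [h5, degree_add_divOf, map_sub, hE, mzk_degree_sum, mzk_degree_single]
    omega
  obtain ⟨Q', hQ'⟩ := mzk_exists_sum (n - 1) E' hE'0 hdeg
  have hmin : z = mzkPtn Q' (n - 1) := by
    rw [hQ, mzkPtn, mzkPtn, mzkCls_eq_iff, ← hQ', ← hE]
    have h6 : E' - Finsupp.single (mzkO (N := N)) (((n - 1 : ℕ) : ℤ)) -
        (E - Finsupp.single (mzkO (N := N)) (n : ℤ))
        = E' - (E - Finsupp.single (mzkO (N := N)) 1) := by
      have h7 : Finsupp.single (mzkO (N := N)) (n : ℤ)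
          = Finsupp.single (mzkO (N := N)) (((n - 1 : ℕ) : ℤ)) + Finsupp.single (mzkO (N := N)) 1 := by
        rw [← Finsupp.single_add]
        congr 1
        omega
      rw [h7]
      abel
    rw [h6]
    exact hE'
  have := Nat.find_min hex (m := n - 1) (by omega)
  exact this ⟨Q', hmin⟩

/-- **(B3)** a class with finite orbit under `Aut(ℂ/ℚ̄)` comes from `J₀(N)(ℚ̄)` -/
theorem mzk_mem_range_BC (z : Pic0 ℂ (MzF N))
    (hz : (Set.range fun σ : mzkH ∅ => mzkG N (σ : ℂ ≃ₐ[ℚ] ℂ) • z).Finite) :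
    z ∈ (mzkBC N).range := by
  obtain ⟨n, Q, rfl, h1⟩ := mzk_exists_canonical z
  have halg : ∀ i < n, mzkJ (Q i) ∈ mzkCl ∅ :=
    fun i hi => mzkJ_mem_cl_of_finite_orbit_ptn h1 hz hi
  obtain ⟨q₀⟩ := exists_place (KMod.isFunctionFieldGen_jBar Kbar N)
  have hq : ∀ i, ∃ q : Place Kbar (MzFK N), i < n → mzkExt q = Q i := by
    intro i
    by_cases hi : i < n
    · obtain ⟨q, hq⟩ := mzkExt_surj (halg i hi)
      exact ⟨q, fun _ => hq⟩
    · exact ⟨q₀, fun h => absurd h hi⟩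
  choose q hq using hq
  obtain ⟨o, ho⟩ := mzkExt_surj (P := mzkO (N := N)) (by rw [mzkJ_O]; exact zero_mem _)
  set E : Divisor Kbar (MzFK N) :=
    ∑ i ∈ Finset.range n, Finsupp.single (q i) 1 - Finsupp.single o (n : ℤ) with hE
  have hBC : mzkBCdiv E = mzkSum Q n - Finsupp.single (mzkO (N := N)) (n : ℤ) := by
    rw [hE, map_sub, map_sum, mzkBCdiv_single, ho, mzkSum]
    congr 1
    apply Finset.sum_congr rfl
    intro i hi
    rw [mzkBCdiv_single, hq i (Finset.mem_range.mp hi)]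
  have hdeg : Divisor.degree E = 0 := by
    rw [← mzkBCdiv_degree, hBC, mzk_degree_ptn]
  refine ⟨Pic0.mk ⟨E, hdeg⟩, ?_⟩
  rw [mzkBC_mk, mzkPtn, mzkCls]
  apply congrArg
  apply Subtype.ext
  rw [coe_mzkBCdeg0]
  exact hBC

end Fermat.Agent.Mazur
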