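/-
MAZUR (K): **`J₀(N)(ℚ̄)` is a divisible group.**

`mzk_divisible : ∀ m ≠ 0, ∀ y : JZero N, ∃ z : JZero N, m • z = y`.

Proof (Weil's generic points, entirely inside the function field `ℂ(X₀(N)) ⊂ ℂ((q))` with the
coefficientwise action of `Aut(ℂ/ℚ)`):
* Theorem A (`mzk_divisible_fixed`, K/Weil.lean): classes of `Pic⁰(ℂ(X₀(N)))` fixed by `Aut(ℂ/ℚ̄)`
  are divisible by `m`;
* (T) (`mzk_finite_torsion`, K/Torsion.lean): the `m`-torsion of `Pic⁰(ℂ(X₀(N)))` is finite;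
* (B) (`mzkBC`, K/BCDiv.lean, K/Canon.lean): base change `J₀(N)(ℚ̄) → Pic⁰(ℂ(X₀(N)))` is injective,
  its image is fixed by `Aut(ℂ/ℚ̄)` and contains every class with a finite orbit.
-/
import Mathlib
import Fermat.Agent.Lib.Mazur.K.Canon

set_option autoImplicit false
set_option linter.unusedSectionVars false
set_option linter.style.haveILetI false
set_option linter.unusedVariables false

namespace Fermat.Agent.Mazur

open AlgebraicCurve ModularCurve Fermat.Agent.T1 Fermat.Agent.Curve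

variable (N : ℕ) [NeZero N]

/-- **(K)**: `J₀(N)(ℚ̄)` is divisible -/
theorem mzk_divisible {m : ℕ} (hm : m ≠ 0) (y : JZero N) : ∃ z : JZero N, m • z = y := by
  haveI := mzk_finite_torsion (N := N) hm
  have hT : (Pic0.torsion ℂ (MzF N) m : Set (Pic0 ℂ (MzF N))).Finite := Set.toFinite _
  obtain ⟨z, hz⟩ := mzk_divisible_fixed hT (mzkBC N y) (fun σ hσ => mzkBC_fixed y hσ)
  have hfin : (Set.range fun σ : mzkH ∅ => mzkG N (σ : ℂ ≃ₐ[ℚ] ℂ) • z).Finite := by
    refine (hT.image fun t => z + t).subset ?_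
    rintro _ ⟨σ, rfl⟩
    refine ⟨mzkG N (σ : ℂ ≃ₐ[ℚ] ℂ) • z - z, ?_, add_sub_cancel _ _⟩
    rw [SetLike.mem_coe, Pic0.mem_torsion, natCast_zsmul, nsmul_sub, ← mzk_smul_nsmul, hz,
      mzkBC_fixed y σ.2, sub_self]
  obtain ⟨z', rfl⟩ := mzk_mem_range_BC z hfin
  refine ⟨z', mzkBC_injective ?_⟩
  rw [map_nsmul, hz]

end Fermat.Agent.Mazur
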